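import Fermat.Agent.EC.Rep
import Fermat.Agent.EC.Local.Mult
import Fermat.Prelude.Def_FLTPrelim_Ramification

/-!
# The Frey curve: invariants and the representation at odd primes `q ≠ p`
-/

set_option autoImplicit false

namespace Fermat.Agent.EC

open WeierstrassCurve WeierstrassCurve.Affine.Point
open scoped WeierstrassCurve.Affine

section Int

variable {L : Type*} [Field L] {A : ValuationSubring L}

lemma val_intCast_le_one (n : ℤ) : A.valuation (n : L) ≤ 1 :=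
  (A.valuation_le_one_iff _).2 (intCast_mem A n)

lemma val_intCast_eq_one {q : ℕ} (hq : q.Prime) (hA : A.LiesOverPrime q) {n : ℤ}
    (hn : ¬ (q : ℤ) ∣ n) : A.valuation (n : L) = 1 := by
  refine (val_intCast_le_one n).lt_or_eq.resolve_left fun hlt => ?_
  obtain ⟨s, t, hst⟩ := ((Nat.prime_iff_prime_int.1 hq).coprime_iff_not_dvd.2 hn)
  have h1 : A.valuation ((s : L) * (q : L) + (t : L) * (n : L)) < 1 :=
    val_add_lt _ (val_mul_lt_one' _ (val_intCast_le_one s) ((ValuationSubring.mem_nonunits_iff A).1 hA))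
      (val_mul_lt_one' _ (val_intCast_le_one t) hlt)
  have h2 : (s : L) * (q : L) + (t : L) * (n : L) = 1 := by
    rw [← Int.cast_natCast (R := L) q, ← Int.cast_mul, ← Int.cast_mul, ← Int.cast_add, hst,
      Int.cast_one]
  rw [h2, map_one] at h1
  exact lt_irrefl _ h1

lemma val_intCast_lt_one {q : ℕ} (hA : A.LiesOverPrime q) {n : ℤ} (hn : (q : ℤ) ∣ n) :
    A.valuation (n : L) < 1 := by
  obtain ⟨m, rfl⟩ := hn
  rw [Int.cast_mul, Int.cast_natCast]
  exact val_mul_lt_one _ ((ValuationSubring.mem_nonunits_iff A).1 hA) (val_intCast_le_one m)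

/-- The valuation of a nonzero integer is that of a power of `q`. -/
lemma exists_val_intCast_eq_pow {q : ℕ} (hq : q.Prime) (hA : A.LiesOverPrime q) {n : ℤ}
    (hn : n ≠ 0) : ∃ m : ℕ, A.valuation (n : L) = A.valuation (q : L) ^ m := by
  obtain ⟨m, n', hn', e⟩ : ∃ m : ℕ, ∃ n' : ℤ, ¬ (q : ℤ) ∣ n' ∧ n = (q : ℤ) ^ m * n' := by
    have hf : FiniteMultiplicity (q : ℤ) n :=
      Int.finiteMultiplicity_iff.2 ⟨by simpa using hq.ne_one, hn⟩
    obtain ⟨n', e, hn'⟩ := hf.exists_eq_pow_mul_and_not_dvd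
    exact ⟨_, n', hn', e⟩
  refine ⟨m, ?_⟩
  rw [e, Int.cast_mul, Int.cast_pow, Int.cast_natCast, map_mul, map_pow,
    val_intCast_eq_one hq hA hn', mul_one]

lemma isUnit_natCast {q : ℕ} (hq : q.Prime) (hA : A.LiesOverPrime q) {n : ℕ} (hn : ¬ q ∣ n) :
    IsUnit (n : A) := by
  rw [A.valuation_eq_one_iff]
  simpa using val_intCast_eq_one hq hA (n := (n : ℤ)) (by exact_mod_cast hn)

end Int

section Frey

variable (P : FreyPackage)

lemma freyCurve_Δ : P.freyCurve.Δ = (((P.a * P.b * P.c : ℤ) : ℚ) ^ P.p) ^ 2 / 256 := by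
  have h : (P.c : ℚ) ^ P.p = (P.a : ℚ) ^ P.p + (P.b : ℚ) ^ P.p := by exact_mod_cast P.hFLT.symm
  simp only [FreyPackage.freyCurve, WeierstrassCurve.Δ, WeierstrassCurve.b₂, WeierstrassCurve.b₄,
    WeierstrassCurve.b₆, WeierstrassCurve.b₈]
  push_cast
  rw [mul_pow, mul_pow, h]
  ring

lemma freyCurve_c₄ : P.freyCurve.c₄ =
    ((((P.a ^ P.p) ^ 2 + P.a ^ P.p * P.b ^ P.p + (P.b ^ P.p) ^ 2 : ℤ)) : ℚ) := by
  simp only [FreyPackage.freyCurve, WeierstrassCurve.c₄, WeierstrassCurve.b₂, WeierstrassCurve.b₄]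
  push_cast
  ring

lemma freyCurve_Δ_ne_zero : P.freyCurve.Δ ≠ 0 := by
  rw [freyCurve_Δ]
  exact div_ne_zero (pow_ne_zero 2 (pow_ne_zero _ (Int.cast_ne_zero.2 P.habc0))) (by norm_num)

instance freyCurve_baseChange_isElliptic (L : Type*) [Field L] [Algebra ℚ L] :
    (WeierstrassCurve.IsElliptic (P.freyCurve⁄L)) := by
  refine ⟨isUnit_iff_ne_zero.2 ?_⟩
  rw [show (P.freyCurve⁄L).Δ = algebraMap ℚ L P.freyCurve.Δ from map_Δ _ _]
  exact (map_ne_zero _).2 (freyCurve_Δ_ne_zero P)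

lemma not_dvd_c₄_of_dvd {q : ℕ} (hq : q.Prime) (hd : (q : ℤ) ∣ P.a * P.b * P.c) :
    ¬ (q : ℤ) ∣ (P.a ^ P.p) ^ 2 + P.a ^ P.p * P.b ^ P.p + (P.b ^ P.p) ^ 2 := by
  have hp := Nat.prime_iff_prime_int.1 hq
  intro h
  set A := P.a ^ P.p
  set B := P.b ^ P.p
  have hab : (q : ℤ) ∣ P.a → ¬ (q : ℤ) ∣ P.b := fun h1 h2 => by
    have := dvd_gcd h1 h2
    rw [P.hgcdab] at this
    exact hp.not_isUnit (isUnit_of_dvd_one this)
  have hAB : (q : ℤ) ∣ A → ¬ (q : ℤ) ∣ B := fun h1 h2 =>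
    hab (hp.dvd_of_dvd_pow h1) (hp.dvd_of_dvd_pow h2)
  rcases hp.dvd_or_dvd hd with hd | hd
  · rcases hp.dvd_or_dvd hd with hd | hd
    · have h1 : (q : ℤ) ∣ A := dvd_pow hd P.hp0
      have h2 : (q : ℤ) ∣ B ^ 2 := by
        have := dvd_sub h (h1.mul_right (A + B))
        rwa [show A ^ 2 + A * B + B ^ 2 - A * (A + B) = B ^ 2 by ring] at this
      exact hAB h1 (hp.dvd_of_dvd_pow h2)
    · have h1 : (q : ℤ) ∣ B := dvd_pow hd P.hp0
      have h2 : (q : ℤ) ∣ A ^ 2 := by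
        have := dvd_sub h (h1.mul_right (A + B))
        rwa [show A ^ 2 + A * B + B ^ 2 - B * (A + B) = A ^ 2 by ring] at this
      exact hAB (hp.dvd_of_dvd_pow h2) h1
  · have h1 : (q : ℤ) ∣ A + B := P.hFLT ▸ dvd_pow hd P.hp0
    have h2 : (q : ℤ) ∣ A ^ 2 := by
      have := dvd_sub h (h1.mul_left B)
      rwa [show A ^ 2 + A * B + B ^ 2 - B * (A + B) = A ^ 2 by ring] at this
    have h3 := hp.dvd_of_dvd_pow h2
    exact hAB h3 (by simpa using dvd_sub h1 h3)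

theorem frey_unramified {q : ℕ} (hq : q.Prime) (hq2 : q ≠ 2) (hqp : q ≠ P.p) :
    P.GaloisRepUnramifiedAt q := by
  intro A hA σ hσ T
  have hin := actsInertially_of_mem hσ
  haveI : Fact P.p.Prime := ⟨P.pp⟩
  have hodd : Odd P.p := P.hp_odd
  have hpu : IsUnit (P.p : A) :=
    isUnit_natCast hq hA (fun h => hqp ((Nat.prime_dvd_prime_iff_eq hq P.pp).1 h))
  have hv2 : A.valuation (2 : AlgebraicClosure ℚ) = 1 := by
    simpa using val_intCast_eq_one (A := A) hq hA (n := 2) (fun h => hq2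
      ((Nat.prime_dvd_prime_iff_eq hq Nat.prime_two).1 (by exact_mod_cast h)))
  -- the model over `A`
  have hmem : ∀ r : ℚ, A.valuation (algebraMap ℚ (AlgebraicClosure ℚ) r) ≤ 1 →
      algebraMap ℚ (AlgebraicClosure ℚ) r ∈ A := fun r => A.mem_of_valuation_le_one _
  have hdiv : ∀ (n : ℤ) (j : ℕ),
      A.valuation (algebraMap ℚ (AlgebraicClosure ℚ) ((n : ℚ) / 2 ^ j)) ≤ 1 := fun n j => by
    simp only [map_div₀, map_pow, map_intCast, map_ofNat, hv2, one_pow, div_one]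
    exact val_intCast_le_one n
  have ha₂ : P.freyCurve.a₂ = ((P.b ^ P.p - 1 - P.a ^ P.p : ℤ) : ℚ) / 2 ^ 2 := by
    simp only [FreyPackage.freyCurve]; push_cast; ring
  have ha₄ : P.freyCurve.a₄ = ((-(P.a ^ P.p) * P.b ^ P.p : ℤ) : ℚ) / 2 ^ 4 := by
    simp only [FreyPackage.freyCurve]; push_cast; ring
  let W : WeierstrassCurve A :=
    ⟨1, ⟨_, hmem _ (ha₂ ▸ hdiv _ _)⟩, 0, ⟨_, hmem _ (ha₄ ▸ hdiv _ _)⟩, 0⟩
  have hV : W.map (algebraMap A (AlgebraicClosure ℚ)) =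
      (P.freyCurve⁄(AlgebraicClosure ℚ) : WeierstrassCurve (AlgebraicClosure ℚ)) := by
    ext <;> simp [W, FreyPackage.freyCurve] <;> rfl
  have hΔ : algebraMap A (AlgebraicClosure ℚ) W.Δ =
      (((P.a * P.b * P.c : ℤ) : AlgebraicClosure ℚ) ^ P.p) ^ 2 / 2 ^ 8 := by
    rw [← map_Δ, hV, show (P.freyCurve⁄(AlgebraicClosure ℚ)).Δ = algebraMap ℚ (AlgebraicClosure ℚ) P.freyCurve.Δ from map_Δ _ _, freyCurve_Δ]
    simp only [map_div₀, map_pow, map_intCast, map_ofNat]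
    norm_num
  have hΔv : A.valuation (algebraMap A (AlgebraicClosure ℚ) W.Δ) =
      (A.valuation ((P.a * P.b * P.c : ℤ) : AlgebraicClosure ℚ) ^ P.p) ^ 2 := by
    rw [hΔ, map_div₀, map_pow, map_pow, map_pow, hv2, one_pow, div_one]
  obtain ⟨Q, hQ⟩ := T
  refine Subtype.ext ?_
  show σ • Q = Q
  rcases Q with _ | ⟨x, y, h⟩
  · rfl
  obtain ⟨h', e⟩ := algEquiv_smul_some P.freyCurve σ h
  have t := hQ
  rw [Submodule.mem_torsionBy_iff, natCast_zsmul] at t
  have t' := smul_mem_torsionBy σ hQ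
  rw [Submodule.mem_torsionBy_iff, natCast_zsmul, e] at t'
  rw [e, Affine.Point.some.injEq]
  by_cases hd : (q : ℤ) ∣ P.a * P.b * P.c
  · obtain ⟨m, hm⟩ := exists_val_intCast_eq_pow (A := A) hq hA P.habc0
    have hlt : A.valuation (algebraMap A (AlgebraicClosure ℚ) W.Δ) < 1 := by
      rw [hΔv]
      exact pow_lt_one₀ zero_le (pow_lt_one₀ zero_le (val_intCast_lt_one hA hd) P.hp0) two_ne_zero
    have hΔ0 : W.Δ ≠ 0 := by
      intro h0
      rw [h0, _root_.map_zero, _root_.map_zero, eq_comm, pow_eq_zero_iff two_ne_zero, pow_eq_zero_iff P.hp0,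
        map_eq_zero, Int.cast_eq_zero] at hΔv
      exact P.habc0 hΔv
    have hc₄ : A.valuation (algebraMap A (AlgebraicClosure ℚ) W.c₄) = 1 := by
      rw [← map_c₄, hV, show (P.freyCurve⁄(AlgebraicClosure ℚ)).c₄ = algebraMap ℚ (AlgebraicClosure ℚ) P.freyCurve.c₄ from map_c₄ _ _, freyCurve_c₄, map_intCast]
      exact val_intCast_eq_one hq hA (not_dvd_c₄_of_dvd P hq hd)
    exact inertia_fix_mult W hlt hΔ0 hc₄ hv2 hV
      (σ.commutes _) (σ.commutes _) (σ.commutes _) ((congrArg σ (map_c₄ _ _)).trans ((σ.commutes _).trans (map_c₄ _ _).symm)) hin hpu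
      hodd (w := (q : AlgebraicClosure ℚ) ^ (2 * m)) (by rw [map_pow, map_natCast])
      (by rw [hΔv, hm, map_pow, ← pow_mul, ← pow_mul, ← pow_mul]; ring_nf) h h' t t'
  · have hu : IsUnit W.Δ := by
      rw [A.valuation_eq_one_iff]
      show A.valuation (algebraMap A (AlgebraicClosure ℚ) W.Δ) = 1
      rw [hΔv, val_intCast_eq_one hq hA hd, one_pow, one_pow]
    exact inertia_fix_good W hu hV hin hpu hodd h h' t t'

end Frey

end Fermat.Agent.EC
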