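import Fermat.Agent.EC.Torsion

/-!
# Elementary facts on the Galois representation on `E[n]`
-/

set_option autoImplicit false

namespace Fermat.Agent.EC

open WeierstrassCurve WeierstrassCurve.Affine.Point
open scoped WeierstrassCurve.Affine

variable {R S K : Type*} [CommRing R] [Field S] [Field K] [IsAlgClosed K] [CharZero K]
  [DecidableEq K] [Algebra R S] [Algebra R K] [Algebra S K] [IsScalarTower R S K]
  (W' : WeierstrassCurve.Affine R) [(W'⁄K).IsElliptic]

lemma algEquiv_smul_some (σ : K ≃ₐ[S] K) {x y : K} (h : (W'⁄K).Nonsingular x y) :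
    ∃ h', σ • (Affine.Point.some x y h : (W'⁄K).Point) =
      Affine.Point.some (σ x) (σ y) h' :=
  ⟨_, rfl⟩

variable (S) in
/-- The action on `E[n]` factors through a finite extension. -/
theorem exists_finite_level [Algebra.IsAlgebraic S K] (n : ℕ) (hn : 1 ≤ n) :
    ∃ L : IntermediateField S K, FiniteDimensional S L ∧
      ∀ σ : K ≃ₐ[S] K, (∀ x ∈ L, σ x = x) →
        ∀ P : Submodule.torsionBy ℤ (W'⁄K).Point n, σ • P = P := by
  classical
  haveI : Finite (Submodule.torsionBy ℤ (W'⁄K).Point n) :=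
    finite_torsionBy (W'⁄K : WeierstrassCurve K) n hn
  let coords : (W'⁄K).Point → Set K := fun P =>
    match P with
    | .zero => ∅
    | .some x y _ => {x, y}
  have hfin : ∀ P, (coords P).Finite := by
    rintro (_ | ⟨x, y, h⟩)
    · exact Set.finite_empty
    · exact Set.toFinite _
  let s : Set K := ⋃ P : Submodule.torsionBy ℤ (W'⁄K).Point n, coords P.1
  have hs : s.Finite := Set.finite_iUnion fun P => hfin _
  haveI : Finite s := hs
  refine ⟨IntermediateField.adjoin S s,
    IntermediateField.finiteDimensional_adjoin fun x _ =>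
      (Algebra.IsAlgebraic.isAlgebraic x).isIntegral, fun σ hσ P => Subtype.ext ?_⟩
  show σ • P.1 = P.1
  rcases hP : P.1 with _ | ⟨x, y, h⟩
  · rfl
  · have hmem : ∀ z ∈ ({x, y} : Set K), σ z = z := fun z hz => hσ z
      (IntermediateField.subset_adjoin S s (Set.mem_iUnion.2 ⟨P, by simp only [coords, hP]; exact hz⟩))
    obtain ⟨h', e⟩ := algEquiv_smul_some W' σ h
    rw [e, Affine.Point.some.injEq]
    exact ⟨hmem x (by simp), hmem y (by simp)⟩

variable (p : ℕ) [Fact p.Prime]

theorem finrank_eq_one_of_ne {N : Submodule (ZMod p) (Submodule.torsionBy ℤ (W'⁄K).Point p)}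
    (h0 : N ≠ ⊥) (h1 : N ≠ ⊤) : Module.finrank (ZMod p) N = 1 := by
  have : Finite (Submodule.torsionBy ℤ (W'⁄K).Point p) :=
    finite_torsionBy (W'⁄K : WeierstrassCurve K) p (Fact.out : p.Prime).one_le
  have h2 := finrank_torsionBy (K := K) W' p
  have := Submodule.finrank_lt h1
  have : Module.finrank (ZMod p) N ≠ 0 := fun e => h0 (Submodule.finrank_eq_zero.1 e)
  omega

theorem nontrivial_torsionBy :
    Nontrivial (Submodule.torsionBy ℤ (W'⁄K).Point p) :=
  Module.nontrivial_of_finrank_eq_succ (R := ZMod p) (finrank_torsionBy (K := K) W' p)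

variable (S) in
/-- Reducible iff there is a stable line. -/
theorem not_irreducible_iff_exists_stable_line :
    ¬ GaloisRepIsIrreducible (K := K) S W' p ↔
      ∃ N : Submodule (ZMod p) (Submodule.torsionBy ℤ (W'⁄K).Point p),
        IsGaloisStable S N ∧ Module.finrank (ZMod p) N = 1 := by
  constructor
  · intro h
    unfold GaloisRepIsIrreducible at h
    push Not at h
    obtain ⟨N, hN, h0, h1⟩ := h (nontrivial_torsionBy W' p)
    exact ⟨N, hN, finrank_eq_one_of_ne W' p h0 h1⟩
  · rintro ⟨N, hN, h1⟩ ⟨-, h⟩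
    rcases h N hN with e | e
    · rw [e, finrank_bot] at h1
      omega
    · rw [e, finrank_top, finrank_torsionBy (K := K) W' p] at h1
      omega

/-- A nonzero point spanning a stable line is an eigenvector. -/
theorem exists_smul_eq {N : Submodule (ZMod p) (Submodule.torsionBy ℤ (W'⁄K).Point p)}
    (hN : IsGaloisStable S N) (h1 : Module.finrank (ZMod p) N = 1) (σ : K ≃ₐ[S] K) {P}
    (hP : P ∈ N) (hP0 : P ≠ 0) : ∃ c : ZMod p, σ • P = c • P := by
  obtain ⟨c, hc⟩ := exists_smul_eq_of_finrank_eq_one h1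
    (x := ⟨P, hP⟩) (fun e => hP0 (congrArg Subtype.val e)) ⟨σ • P, hN σ P hP⟩
  exact ⟨c, (congrArg Subtype.val hc).symm⟩

end Fermat.Agent.EC
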