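import Fermat.Agent.Galois.Places
import Fermat.Prelude.Def_FLTPrelim_Ramification

/-!
# A continuous homomorphism of `G_ℚ` trivial on every inertia group is trivial (Minkowski)
-/

set_option autoImplicit false

namespace Fermat.Agent.EC

open Fermat.Agent.Galois IsLocalRing
open scoped Pointwise NumberField

local notation "Qb" => AlgebraicClosure ℚ

/-- Integers of a subfield inside the algebraic integers. -/
noncomputable def ringOfIntegersToZBar (F : IntermediateField ℚ (AlgebraicClosure ℚ)) :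
    𝓞 F →+* ZBar :=
  ((algebraMap F (AlgebraicClosure ℚ)).comp (algebraMap (𝓞 F) F)).codRestrict
    (integralClosure ℤ (AlgebraicClosure ℚ)) fun b =>
      (NumberField.RingOfIntegers.isIntegral_coe b).map
        (IsScalarTower.toAlgHom ℤ F (AlgebraicClosure ℚ))

/-- An element of inertia of a finite Galois level lifts to an element of the inertia group of a
place. -/
theorem exists_lift_inertia (F : IntermediateField ℚ (AlgebraicClosure ℚ))
    [FiniteDimensional ℚ F] [IsGalois ℚ F] {A : ValuationSubring (AlgebraicClosure ℚ)} {q : ℕ}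
    (hq : q.Prime) (hA : A.LiesOverPrime q) (τ : F ≃ₐ[ℚ] F)
    (hτ : ∀ a : 𝓞 F, ringOfIntegersToZBar F (τ • a) - ringOfIntegersToZBar F a ∈ placeCenter A) :
    ∃ σ : GQ, σ ∈ A.inertiaSubgroupIn ℚ ∧ AlgEquiv.restrictNormalHom F σ = τ := by
  set f := ringOfIntegersToZBar F with hf
  let H : Subgroup GQ := F.fixingSubgroup
  letI : Algebra (𝓞 F) ZBar := f.toAlgebra
  have hfixf : ∀ (h : H) (a : 𝓞 F), h • f a = f a := fun h a =>
    Subtype.ext (((IntermediateField.mem_fixingSubgroup_iff _ _).1 h.2)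
      ((a : F) : AlgebraicClosure ℚ) (a : F).2)
  haveI : SMulCommClass H (𝓞 F) ZBar := ⟨fun h a b => by
    show h • (f a * b) = f a * (h • b)
    rw [smul_mul', hfixf]⟩
  haveI : Algebra.IsInvariant (𝓞 F) ZBar H := ⟨fun b hb => by
    have hmem : (b : AlgebraicClosure ℚ) ∈ F := by
      rw [← InfiniteGalois.fixedField_fixingSubgroup F, IntermediateField.mem_fixedField_iff]
      exact fun g hg => congrArg Subtype.val (hb ⟨g, hg⟩)
    have hint : _root_.IsIntegral ℤ (⟨(b : AlgebraicClosure ℚ), hmem⟩ : F) :=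
      (isIntegral_algHom_iff (IsScalarTower.toAlgHom ℤ F (AlgebraicClosure ℚ))
        (algebraMap F (AlgebraicClosure ℚ)).injective).1 b.2
    exact ⟨⟨⟨(b : AlgebraicClosure ℚ), hmem⟩, hint⟩, Subtype.ext rfl⟩⟩
  haveI : CompactSpace H := isCompact_iff_compactSpace.1
    (IntermediateField.fixingSubgroup_isClosed F).isCompact
  letI : TopologicalSpace ZBar := ⊥
  haveI : DiscreteTopology ZBar := ⟨rfl⟩
  haveI : ContinuousSMul GQ ZBar := by
    refine ContinuousSMul.mk (continuous_prod_of_discrete_right.mpr fun b => ?_)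
    refine (IsLocallyConstant.iff_exists_open _).mpr (fun σ => ?_) |>.continuous
    refine ⟨σ • (MulAction.stabilizer GQ (b : AlgebraicClosure ℚ) : Set GQ),
      (stabilizer_isOpen_of_isIntegral _).leftCoset σ, ⟨1, one_mem _, mul_one σ⟩, ?_⟩
    rintro _ ⟨τ, hτ, rfl⟩
    apply Subtype.ext
    simp only [SetLike.mem_coe, MulAction.mem_stabilizer_iff] at hτ
    simp [mul_smul, hτ]
  haveI : ContinuousSMul H ZBar := ⟨by
    have := (continuous_smul (M := GQ) (X := ZBar)).comp
      ((continuous_subtype_val (p := fun g => g ∈ H)).prodMap continuous_id)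
    exact this⟩
  obtain ⟨σ, hσ⟩ := AlgEquiv.restrictNormalHom_surjective (K₁ := F) (AlgebraicClosure ℚ) τ
  have hσf : ∀ a : 𝓞 F, σ • f a = f (τ • a) := fun a => by
    apply Subtype.ext
    show σ ((a : F) : AlgebraicClosure ℚ) = ((τ (a : F) : F) : AlgebraicClosure ℚ)
    rw [← hσ]
    exact (AlgEquiv.restrictNormal_commutes σ F (a : F)).symm
  set Q := placeCenter A with hQ
  have hunder : (σ • Q).under (𝓞 F) = Q.under (𝓞 F) := by
    ext a
    show f a ∈ σ • Q ↔ f a ∈ Q
    rw [Ideal.mem_pointwise_smul_iff_inv_smul_mem]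
    have h1 : σ⁻¹ • f a = f (τ⁻¹ • a) := by
      rw [inv_smul_eq_iff, hσf, smul_inv_smul]
    have h2 := hτ (τ⁻¹ • a)
    rw [smul_inv_smul] at h2
    rw [h1]
    constructor
    · intro h
      have := Q.add_mem h2 h
      rwa [sub_add_cancel] at this
    · intro h
      have := Q.sub_mem h h2
      rwa [sub_sub_cancel] at this
  obtain ⟨g, hg⟩ := Algebra.IsInvariant.exists_smul_of_under_eq_of_profinite (A := 𝓞 F) (G := H)
    (σ • Q) Q hunder
  set ρ : GQ := (g : GQ) * σ with hρ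
  have hρQ : ∀ b, ρ • b ∈ Q ↔ b ∈ Q := fun b => by
    have e : Q = ρ • Q := by rw [hρ, mul_smul]; exact hg
    conv_lhs => rw [e]
    exact Ideal.smul_mem_pointwise_smul_iff
  have hρf : ∀ a : 𝓞 F, ρ • f a - f a ∈ Q := fun a => by
    rw [hρ, mul_smul, hσf, show (g : GQ) • f (τ • a) = f (τ • a) from hfixf g _]
    exact hτ a
  let P : Ideal (𝓞 F) := Q.under (𝓞 F)
  haveI : Q.LiesOver P := ⟨rfl⟩
  let ρQ : ZBar →+* ZBar := MulSemiringAction.toRingHom GQ ZBar ρ
  have hle : Q ≤ Q.comap ρQ := fun b hb => (hρQ b).2 hb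
  let φ₀ : ZBar ⧸ Q →+* ZBar ⧸ Q := Ideal.quotientMap Q ρQ hle
  have hbij : Function.Bijective φ₀ := by
    refine ⟨Ideal.quotientMap_injective' (H := hle) (fun b hb => (hρQ b).1 hb), fun b => ?_⟩
    obtain ⟨b, rfl⟩ := Ideal.Quotient.mk_surjective b
    refine ⟨Ideal.Quotient.mk Q (ρ⁻¹ • b), ?_⟩
    show Ideal.Quotient.mk Q (ρ • (ρ⁻¹ • b)) = _
    rw [smul_inv_smul]
  let φ : (ZBar ⧸ Q) ≃ₐ[𝓞 F ⧸ P] (ZBar ⧸ Q) :=
    AlgEquiv.ofRingEquiv (f := RingEquiv.ofBijective φ₀ hbij) (by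
      intro r
      obtain ⟨a, rfl⟩ := Ideal.Quotient.mk_surjective r
      show Ideal.Quotient.mk Q (ρ • f a) = Ideal.Quotient.mk Q (f a)
      rw [Ideal.Quotient.eq]
      exact hρf a)
  obtain ⟨h, hh⟩ := Ideal.Quotient.stabilizerHom_surjective_of_profinite (G := H) P Q φ
  set ι : GQ := ((h : H) : GQ)⁻¹ * ρ with hι
  have hhQ : ∀ b, (((h : H) : GQ)) • b ∈ Q ↔ b ∈ Q := fun b => by
    have e : Q = ((h : H) : GQ) • Q := h.2.symm
    have h2 := Ideal.smul_mem_pointwise_smul_iff (a := ((h : H) : GQ)) (S := Q) (x := b)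
    rwa [← e] at h2
  have hιb : ∀ b, ι • b - b ∈ Q := fun b => by
    rw [← hhQ, smul_sub, hι, ← mul_smul, mul_inv_cancel_left, ← Ideal.Quotient.eq]
    exact (DFunLike.congr_fun hh (Ideal.Quotient.mk Q b)).symm
  have hιQ : ∀ b, ι • b ∈ Q ↔ b ∈ Q := fun b =>
    ⟨fun hb => by have := Q.sub_mem hb (hιb b); rwa [sub_sub_cancel] at this,
      fun hb => by have := Q.add_mem (hιb b) hb; rwa [sub_add_cancel] at this⟩
  have hdec : ι ∈ A.decompositionSubgroup ℚ := smul_place_eq_of_center hq hA ι hιQ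
  refine ⟨ι, ⟨⟨ι, hdec⟩, ?_, rfl⟩, ?_⟩
  · show (⟨ι, hdec⟩ : A.decompositionSubgroup ℚ) ∈ A.inertiaSubgroup ℚ
    refine MonoidHom.mem_ker.2 (RingEquiv.ext fun r => ?_)
    show (⟨ι, hdec⟩ : A.decompositionSubgroup ℚ) • r = r
    obtain ⟨b, c, hc, e⟩ := exists_residue_eq hq hA r
    have key : ∀ b, (⟨ι, hdec⟩ : A.decompositionSubgroup ℚ) • residue A (zbarToPlace A b) =
        residue A (zbarToPlace A b) := fun b => by
      rw [← ResidueField.residue_smul, show (⟨ι, hdec⟩ : A.decompositionSubgroup ℚ) •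
        zbarToPlace A b = zbarToPlace A (ι • b) from Subtype.ext rfl, ← sub_eq_zero, ← map_sub,
        ← map_sub]
      exact (residue_zbar_eq_zero_iff A _).2 (hιb b)
    have hc' : residue A (zbarToPlace A c) ≠ 0 := mt (residue_zbar_eq_zero_iff A c).1 hc
    refine mul_right_cancel₀ hc' ?_
    have e' := congrArg (fun z => (⟨ι, hdec⟩ : A.decompositionSubgroup ℚ) • z) e
    simp only [smul_mul', key] at e'
    rw [e', e]
  · have k1 : ∀ h : H, AlgEquiv.restrictNormalHom F (h : GQ) = 1 := fun h => AlgEquiv.ext fun x =>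
      Subtype.ext ((AlgEquiv.restrictNormal_commutes (h : GQ) F x).trans
        (((IntermediateField.mem_fixingSubgroup_iff _ _).1 h.2) x x.2))
    rw [hι, hρ, map_mul, map_inv, map_mul, k1, k1, inv_one, one_mul, one_mul, hσ]

/-- **Minkowski.** A homomorphism of `G_ℚ` factoring through a finite level and trivial on all
inertia groups is trivial. -/
theorem eq_one_of_unramified {G : Type*} [Group G] (ρ : GQ →* G)
    (L : IntermediateField ℚ (AlgebraicClosure ℚ)) [FiniteDimensional ℚ L]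
    (hL : ∀ σ : GQ, (∀ x ∈ L, σ x = x) → ρ σ = 1)
    (h : ∀ (q : ℕ), q.Prime → ∀ A : ValuationSubring (AlgebraicClosure ℚ), A.LiesOverPrime q →
      ∀ σ ∈ A.inertiaSubgroupIn ℚ, ρ σ = 1) : ρ = 1 := by
  have hle : L.fixingSubgroup ≤ ρ.ker := fun σ hσ =>
    MonoidHom.mem_ker.2 (hL σ ((IntermediateField.mem_fixingSubgroup_iff _ _).1 hσ))
  have hopen : IsOpen (ρ.ker : Set GQ) :=
    Subgroup.isOpen_mono hle (IntermediateField.fixingSubgroup_isOpen L)
  set F := IntermediateField.fixedField ρ.ker with hF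
  have hFH : F.fixingSubgroup = ρ.ker :=
    InfiniteGalois.fixingSubgroup_fixedField ⟨ρ.ker, Subgroup.isClosed_of_isOpen _ hopen⟩
  haveI : IsGalois ℚ F := (InfiniteGalois.normal_iff_isGalois F).1
    (by rw [hFH]; infer_instance)
  haveI : FiniteDimensional ℚ F := (InfiniteGalois.isOpen_iff_finite F).1
    (by rw [hFH]; exact hopen)
  haveI : NumberField F := { }
  by_cases h1 : 1 < Module.finrank ℚ F
  · exfalso
    obtain ⟨p, hp, hP⟩ := NumberField.exists_not_isUnramifiedAt_int_of_isGalois (𝒪 := 𝓞 F) h1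
    obtain ⟨A, hA⟩ := exists_liesOverPrime hp
    set P : Ideal (𝓞 F) := (placeCenter A).comap (ringOfIntegersToZBar F) with hPdef
    haveI : P.IsPrime := Ideal.IsPrime.comap _
    have hpP : (p : 𝓞 F) ∈ P := by
      rw [hPdef, Ideal.mem_comap, map_natCast, ← Int.cast_natCast,
        intCast_mem_placeCenter hp hA]
    have hram := hP P inferInstance hpP
    haveI := IsGaloisGroup.of_isFractionRing (F ≃ₐ[ℚ] F) ℤ (𝓞 F) ℚ F
    rw [← Ideal.ramificationIdx_eq_one_iff,
      ← Ideal.ramificationIdxIn_eq_ramificationIdx (P.under ℤ) _ (F ≃ₐ[ℚ] F),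
      ← Ideal.card_inertia_eq_ramificationIdxIn (G := F ≃ₐ[ℚ] F) (P.under ℤ) P] at hram
    have hne : P.inertia (F ≃ₐ[ℚ] F) ≠ ⊥ := fun e => hram (by rw [e]; exact Subgroup.card_bot)
    obtain ⟨τ, hτ, hτ1⟩ := (Subgroup.bot_or_exists_ne_one _).resolve_left hne
    obtain ⟨σ, hσ, hστ⟩ := exists_lift_inertia F hp hA τ (fun a => by
      rw [← map_sub]; exact hτ a)
    refine hτ1 (hστ.symm.trans (AlgEquiv.ext fun x => Subtype.ext ?_))
    have hker : σ ∈ F.fixingSubgroup := by
      rw [hFH]; exact MonoidHom.mem_ker.2 (h p hp A hA σ hσ)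
    exact (AlgEquiv.restrictNormal_commutes σ F x).trans
      (((IntermediateField.mem_fixingSubgroup_iff _ _).1 hker) x x.2)
  · have h1' : Module.finrank ℚ F = 1 := le_antisymm (not_lt.1 h1) Module.finrank_pos
    have hbot : F = ⊥ := IntermediateField.finrank_eq_one_iff.1 h1'
    refine MonoidHom.ext fun σ => ?_
    have : σ ∈ ρ.ker := by
      rw [← hFH, hbot, IntermediateField.fixingSubgroup_bot]
      exact Subgroup.mem_top σ
    exact MonoidHom.mem_ker.1 this

end Fermat.Agent.EC
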