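import Mathlib.AlgebraicGeometry.EllipticCurve.Affine.AddSubMap
import Mathlib.Tactic.FieldSimp

/-!
# The addition-and-subtraction law on x-coordinates

`sP`, `tP`, `uP` are the three quadratic forms of `WeierstrassCurve.addSubMap`, as plain functions.
We show that for affine points `P`, `Q` they compute `x(P+Q) * x(P-Q)` and `x(P+Q) + x(P-Q)`.
-/

set_option autoImplicit false

namespace Fermat.Agent.EC

open WeierstrassCurve

section Forms

variable {R : Type*} [CommRing R] {S : Type*} [CommRing S] (W : WeierstrassCurve R)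

/-- First form (numerator of the product). -/
def sP (s t u : R) : R := s ^ 2 - W.b₄ * s * u - W.b₆ * t * u - W.b₈ * u ^ 2

/-- Second form (numerator of the sum). -/
def tP (s t u : R) : R := 2 * t * s + W.b₂ * s * u + W.b₄ * t * u + W.b₆ * u ^ 2

/-- Third form (common denominator). -/
def uP (s t u : R) : R := t ^ 2 - 4 * s * u

lemma map_sP (f : R →+* S) (s t u : R) :
    sP (W.map f) (f s) (f t) (f u) = f (sP W s t u) := by
  simp [sP]

lemma map_tP (f : R →+* S) (s t u : R) :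
    tP (W.map f) (f s) (f t) (f u) = f (tP W s t u) := by
  simp [tP, map_ofNat]

lemma map_uP (f : R →+* S) (s t u : R) :
    uP (f s) (f t) (f u) = f (uP s t u) := by
  simp [uP, map_ofNat]

lemma forms_ne_zero [IsReduced R] (hΔ : IsUnit W.Δ) {s t u : R} (h : ¬(s = 0 ∧ t = 0 ∧ u = 0)) :
    ¬(sP W s t u = 0 ∧ tP W s t u = 0 ∧ uP s t u = 0) := by
  have : W.IsElliptic := ⟨hΔ⟩
  rintro ⟨h1, h2, h3⟩
  have hx : (![s, t, u] : Fin 3 → R) ≠ 0 := by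
    intro hx
    exact h ⟨by simpa using congrFun hx 0, by simpa using congrFun hx 1,
      by simpa using congrFun hx 2⟩
  refine addSubMap_ne_zero W hx (funext fun i => ?_)
  fin_cases i
  · simpa [addSubMap, sP] using h1
  · simpa [addSubMap, tP] using h2
  · simpa [addSubMap, uP] using h3

end Forms

section Points

variable {K : Type*} [Field K] [DecidableEq K] {W : WeierstrassCurve K}

open WeierstrassCurve.Affine

omit [DecidableEq K] in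
/-- `(2y + a₁x + a₃)²` in terms of `x` on the curve. -/
lemma psi2_sq {x y : K} (h : W.toAffine.Equation x y) :
    (2 * y + W.a₁ * x + W.a₃) ^ 2 = tP W (x * x) (x + x) 1 := by
  rw [Affine.equation_iff] at h
  simp only [tP, WeierstrassCurve.b₂, WeierstrassCurve.b₄, WeierstrassCurve.b₆]
  linear_combination 4 * h

/-- For `x₁ ≠ x₂`: `P + Q`, `P - Q` are affine, with the given sum and product of abscissae. -/
lemma addSub_of_ne {x₁ y₁ x₂ y₂ : K} (h₁ : W.toAffine.Nonsingular x₁ y₁)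
    (h₂ : W.toAffine.Nonsingular x₂ y₂) (hx : x₁ ≠ x₂) :
    ∃ (xa ya xs ys : K) (ha : W.toAffine.Nonsingular xa ya)
      (hs : W.toAffine.Nonsingular xs ys),
      Point.some x₁ y₁ h₁ + Point.some x₂ y₂ h₂ = Point.some xa ya ha ∧
      Point.some x₁ y₁ h₁ - Point.some x₂ y₂ h₂ = Point.some xs ys hs ∧
      (xa + xs) * uP (x₁ * x₂) (x₁ + x₂) 1 = tP W (x₁ * x₂) (x₁ + x₂) 1 ∧
      xa * xs * uP (x₁ * x₂) (x₁ + x₂) 1 = sP W (x₁ * x₂) (x₁ + x₂) 1 := by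
  have e₁ := (Affine.equation_iff ..).1 h₁.1
  have e₂ := (Affine.equation_iff ..).1 h₂.1
  have hd : x₁ - x₂ ≠ 0 := sub_ne_zero.2 hx
  have h₂' : W.toAffine.Nonsingular x₂ (W.toAffine.negY x₂ y₂) :=
    (Affine.nonsingular_neg ..).2 h₂
  set l := W.toAffine.slope x₁ x₂ y₁ y₂ with hl
  set m := W.toAffine.slope x₁ x₂ y₁ (W.toAffine.negY x₂ y₂) with hm
  refine ⟨W.toAffine.addX x₁ x₂ l, W.toAffine.addY x₁ x₂ y₁ l,
    W.toAffine.addX x₁ x₂ m, W.toAffine.addY x₁ x₂ y₁ m,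
    Affine.nonsingular_add h₁ h₂ fun hxy => hx hxy.1,
    Affine.nonsingular_add h₁ h₂' fun hxy => hx hxy.1, Point.add_of_X_ne hx, ?_, ?_⟩
  · rw [sub_eq_add_neg, Point.neg_some, Point.add_of_X_ne hx]
  set n₁ := y₁ - y₂ with hn₁
  set n₂ := y₁ + y₂ + W.a₁ * x₂ + W.a₃ with hn₂
  have kl : l * (x₁ - x₂) = n₁ := by
    rw [hl, Affine.slope_of_X_ne hx, div_mul_cancel₀ _ hd]
  have km : m * (x₁ - x₂) = n₂ := by
    rw [hm, Affine.slope_of_X_ne hx, div_mul_cancel₀ _ hd, hn₂]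
    simp only [Affine.negY]
    ring
  simp only [Affine.addX, uP, tP, sP, WeierstrassCurve.b₂, WeierstrassCurve.b₄,
    WeierstrassCurve.b₆, WeierstrassCurve.b₈]
  constructor
  · have key : n₁ ^ 2 + W.a₁ * n₁ * (x₁ - x₂) + n₂ ^ 2 + W.a₁ * n₂ * (x₁ - x₂)
        - 2 * (W.a₂ + x₁ + x₂) * (x₁ - x₂) ^ 2
        = 2 * (x₁ + x₂) * (x₁ * x₂) + (W.a₁ ^ 2 + 4 * W.a₂) * (x₁ * x₂)
          + (2 * W.a₄ + W.a₁ * W.a₃) * (x₁ + x₂) + (W.a₃ ^ 2 + 4 * W.a₆) := by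
      rw [hn₁, hn₂]
      linear_combination 2 * e₁ + 2 * e₂
    linear_combination key + (l * (x₁ - x₂) + n₁ + W.a₁ * (x₁ - x₂)) * kl
      + (m * (x₁ - x₂) + n₂ + W.a₁ * (x₁ - x₂)) * km
  · apply mul_left_cancel₀ (pow_ne_zero 2 hd)
    have key : (n₁ ^ 2 + W.a₁ * n₁ * (x₁ - x₂) - (W.a₂ + x₁ + x₂) * (x₁ - x₂) ^ 2) *
        (n₂ ^ 2 + W.a₁ * n₂ * (x₁ - x₂) - (W.a₂ + x₁ + x₂) * (x₁ - x₂) ^ 2)
        = (x₁ - x₂) ^ 2 * ((x₁ * x₂) ^ 2 - (2 * W.a₄ + W.a₁ * W.a₃) * (x₁ * x₂) * 1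
          - (W.a₃ ^ 2 + 4 * W.a₆) * (x₁ + x₂) * 1
          - (W.a₁ ^ 2 * W.a₆ + 4 * W.a₂ * W.a₆ - W.a₁ * W.a₃ * W.a₄ + W.a₂ * W.a₃ ^ 2
            - W.a₄ ^ 2) * 1 ^ 2) := by
      rw [hn₁, hn₂]
      linear_combination
        ((y₁ ^ 2 + W.a₁ * x₁ * y₁ + W.a₃ * y₁) +
          (x₁ ^ 3 + W.a₂ * x₁ ^ 2 + W.a₄ * x₁ + W.a₆) -
          2 * (y₂ ^ 2 + W.a₁ * x₂ * y₂ + W.a₃ * y₂) -
          2 * (W.a₂ + x₁ + x₂) * (x₁ - x₂) ^ 2 +
          W.a₁ * (x₁ - x₂) * (W.a₁ * x₂ + W.a₃)) * e₁ +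
        ((y₂ ^ 2 + W.a₁ * x₂ * y₂ + W.a₃ * y₂) +
          (x₂ ^ 3 + W.a₂ * x₂ ^ 2 + W.a₄ * x₂ + W.a₆) -
          2 * (x₁ ^ 3 + W.a₂ * x₁ ^ 2 + W.a₄ * x₁ + W.a₆) -
          2 * (W.a₂ + x₁ + x₂) * (x₁ - x₂) ^ 2 -
          W.a₁ * (x₁ - x₂) * (W.a₁ * x₁ + W.a₃)) * e₂
    rw [← key, ← kl, ← km]
    ring

/-- Doubling, `2P ≠ 0`. -/
lemma double_of_ne {x y : K} (h : W.toAffine.Nonsingular x y)
    (hy : 2 * y + W.a₁ * x + W.a₃ ≠ 0) :
    ∃ (xa ya : K) (ha : W.toAffine.Nonsingular xa ya),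
      Point.some x y h + Point.some x y h = Point.some xa ya ha ∧
      xa * tP W (x * x) (x + x) 1 = sP W (x * x) (x + x) 1 := by
  have e := (Affine.equation_iff ..).1 h.1
  have hne : y ≠ W.toAffine.negY x y := by
    intro hh
    apply hy
    simp only [Affine.negY] at hh
    linear_combination hh
  refine ⟨_, _, _, Point.add_self_of_Y_ne hne, ?_⟩
  rw [← psi2_sq h.1]
  set l := W.toAffine.slope x x y y with hl
  set d := 2 * y + W.a₁ * x + W.a₃ with hd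
  have hneg : y - W.toAffine.negY x y = d := by rw [hd, Affine.negY]; ring
  have kl : l * d = 3 * x ^ 2 + 2 * W.a₂ * x + W.a₄ - W.a₁ * y := by
    rw [hl, Affine.slope_of_Y_ne rfl hne, hneg, div_mul_cancel₀ _ hy]
  simp only [Affine.addX, sP, WeierstrassCurve.b₄, WeierstrassCurve.b₆, WeierstrassCurve.b₈]
  set n := 3 * x ^ 2 + 2 * W.a₂ * x + W.a₄ - W.a₁ * y with hn
  have key : n ^ 2 + W.a₁ * n * d - (W.a₂ + x + x) * d ^ 2
      = (x * x) ^ 2 - (2 * W.a₄ + W.a₁ * W.a₃) * (x * x) * 1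
          - (W.a₃ ^ 2 + 4 * W.a₆) * (x + x) * 1
          - (W.a₁ ^ 2 * W.a₆ + 4 * W.a₂ * W.a₆ - W.a₁ * W.a₃ * W.a₄ + W.a₂ * W.a₃ ^ 2
            - W.a₄ ^ 2) * 1 ^ 2 := by
    rw [hn, hd]
    grind
  linear_combination key + (l * d + n + W.a₁ * d) * kl

/-- `2P = 0` iff `2y + a₁x + a₃ = 0`. -/
lemma add_self_eq_zero_iff {x y : K} (h : W.toAffine.Nonsingular x y) :
    Point.some x y h + Point.some x y h = 0 ↔ 2 * y + W.a₁ * x + W.a₃ = 0 := by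
  constructor
  · intro h0
    by_contra hy
    obtain ⟨xa, ya, ha, he, -⟩ := double_of_ne h hy
    rw [he] at h0
    exact Point.some_ne_zero ha h0
  · intro hy
    exact Point.add_self_of_Y_eq (by simp only [Affine.negY]; linear_combination hy)

end Points

end Fermat.Agent.EC
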