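import Fermat.Agent.EC.Frey
import Fermat.Agent.EC.Unramified
import Fermat.Agent.EC.Local.AtP
import Fermat.Agent.EC.Local.AtTwo
import Fermat.Agent.Mazur.FreyFacts
import Fermat.Prelude.Def_FLTPrelim_CofixedLine

/-!
# A reducible Frey representation has a cofixed line

If `N` is a stable line in `E[p]`, then either `N` is fixed by all inertia groups, hence rational,
which is excluded by the place above `2`, or the quotient is fixed by all inertia groups, hence
trivial.
-/

set_option autoImplicit false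

namespace Fermat.Agent.EC

open WeierstrassCurve WeierstrassCurve.Affine.Point Fermat.Agent.Galois
open scoped WeierstrassCurve.Affine Pointwise

/-- The algebraic closure of `ℚ`. -/
local notation "Qbar" => AlgebraicClosure ℚ

variable (P : FreyPackage)

/-- The `p`-torsion of the Frey curve. -/
noncomputable abbrev FreyTorsion := Submodule.torsionBy ℤ (P.freyCurve⁄Qbar).Point P.p

/-- The integral Frey model over a valuation subring. -/
noncomputable def freyModel (A : ValuationSubring Qbar) : WeierstrassCurve A :=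
  P.freyCurveInt.map (Int.castRingHom A)

lemma freyModel_map (A : ValuationSubring Qbar) :
    (freyModel P A).map (algebraMap A Qbar) =
      (P.freyCurve⁄Qbar : WeierstrassCurve Qbar) := by
  rw [freyModel, WeierstrassCurve.map_map,
    show (P.freyCurve⁄Qbar : WeierstrassCurve Qbar) = P.freyCurve.map (algebraMap ℚ Qbar) from rfl,
    ← Mazur.freyCurveInt_map P, WeierstrassCurve.map_map]
  congr 1

lemma freyModel_val_Δ (A : ValuationSubring Qbar) :
    A.valuation (algebraMap A Qbar (freyModel P A).Δ) =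
      (A.valuation ((P.a * P.b * P.c : ℤ) : Qbar) ^ P.p) ^ 2 / A.valuation (256 : Qbar) := by
  rw [← map_Δ, freyModel_map, show (P.freyCurve⁄Qbar).Δ = algebraMap ℚ Qbar P.freyCurve.Δ from
    map_Δ _ _, freyCurve_Δ]
  simp only [map_div₀, map_pow, map_intCast, map_ofNat]

lemma freyModel_c₄ (A : ValuationSubring Qbar) :
    algebraMap A Qbar (freyModel P A).c₄ =
      (((P.a ^ P.p) ^ 2 + P.a ^ P.p * P.b ^ P.p + (P.b ^ P.p) ^ 2 : ℤ) : Qbar) := by
  rw [← map_c₄, freyModel_map, show (P.freyCurve⁄Qbar).c₄ = algebraMap ℚ Qbar P.freyCurve.c₄ from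
    map_c₄ _ _, freyCurve_c₄, map_intCast]

lemma freyModel_Δ_ne_zero (A : ValuationSubring Qbar) : (freyModel P A).Δ ≠ 0 := by
  intro e
  have h := map_Δ (freyModel P A) (algebraMap A Qbar)
  rw [freyModel_map, e, _root_.map_zero] at h
  exact (P.freyCurve⁄Qbar : WeierstrassCurve Qbar).isUnit_Δ.ne_zero h

lemma smul_point_some (σ : GQ) {x y : Qbar} (h : (P.freyCurve⁄Qbar).Nonsingular x y) :
    ∃ h', σ • (Affine.Point.some x y h : (P.freyCurve⁄Qbar).Point) =
      Affine.Point.some (σ x) (σ y) h' :=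
  algEquiv_smul_some P.freyCurve σ h

lemma torsion_nsmul {Q : (P.freyCurve⁄Qbar).Point} (hQ : Q ∈ Submodule.torsionBy ℤ _ (P.p : ℤ)) :
    P.p • Q = 0 := by
  rwa [Submodule.mem_torsionBy_iff, natCast_zsmul] at hQ

/-- Inertia at `2` fixes the eigenvectors. -/
theorem two_eigen {A : ValuationSubring Qbar} (hA : A.LiesOverPrime 2) {σ : GQ}
    (hσ : σ ∈ A.inertiaSubgroupIn ℚ) (x : FreyTorsion P) (b : ℕ) (hb : σ • x = b • x) :
    σ • x = x := by
  haveI : Fact P.p.Prime := ⟨P.pp⟩
  have h2 : A.valuation (2 : Qbar) < 1 := (ValuationSubring.mem_nonunits_iff A).1 hA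
  have hpu : IsUnit (P.p : A) := isUnit_natCast Nat.prime_two hA (fun h => by
    have := (Nat.prime_dvd_prime_iff_eq Nat.prime_two P.pp).1 h
    have := P.hp5
    omega)
  obtain ⟨k, hk⟩ := Mazur.freyCurve_delta_even P
  obtain ⟨l, hl⟩ := Mazur.freyCurve_c4_odd P
  have hΔ : A.valuation (algebraMap A Qbar (freyModel P A).Δ) < 1 := by
    rw [← map_Δ, freyModel_map, show (P.freyCurve⁄Qbar).Δ = algebraMap ℚ Qbar P.freyCurve.Δ from
      map_Δ _ _, hk, map_intCast]
    exact val_intCast_lt_one hA ⟨k, by norm_num⟩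
  have hc₄ : A.valuation (algebraMap A Qbar (freyModel P A).c₄) = 1 := by
    rw [← map_c₄, freyModel_map, show (P.freyCurve⁄Qbar).c₄ = algebraMap ℚ Qbar P.freyCurve.c₄ from
      map_c₄ _ _, hl, map_intCast]
    exact val_intCast_eq_one Nat.prime_two hA (by omega)
  obtain ⟨Q, hQ⟩ := x
  refine Subtype.ext ?_
  show σ • Q = Q
  have hb' : σ • Q = b • Q := congrArg Subtype.val hb
  have t := torsion_nsmul P hQ
  rcases Q with _ | ⟨x, y, h⟩
  · rfl
  obtain ⟨h', e⟩ := smul_point_some P σ h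
  haveI : ((freyModel P A).map (algebraMap A Qbar)).IsElliptic := by
    rw [freyModel_map]; infer_instance
  rw [e] at hb' ⊢
  rw [Affine.Point.some.injEq]
  exact two_eigen_fix (freyModel P A) h2 (map_one _) hΔ (freyModel_Δ_ne_zero P A) hc₄
    (freyModel_map P A) (σ.commutes _) (σ.commutes _) (σ.commutes _)
    ((congrArg σ (map_c₄ _ _)).trans ((σ.commutes _).trans (map_c₄ _ _).symm))
    (actsInertially_of_mem hσ) hpu P.hp_odd h h' t b hb'

lemma exists_bigSubgroup {A : ValuationSubring Qbar} {W : WeierstrassCurve A}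
    {V : WeierstrassCurve Qbar} (hV : W.map (algebraMap A Qbar) = V) :
    ∃ H : AddSubgroup V.toAffine.Point, ∀ Q, Q ∈ H ↔ IsBigPoint A Q := by
  subst hV
  exact ⟨redKernel A W, fun _ => Iff.rfl⟩

/-- The kernel of reduction inside `E[p]`. -/
noncomputable def bigTorsion (A : ValuationSubring Qbar) :
    Submodule (ZMod P.p) (FreyTorsion P) :=
  AddSubgroup.toZModSubmodule P.p
    ((exists_bigSubgroup (freyModel_map P A)).choose.comap
      (Submodule.torsionBy ℤ (P.freyCurve⁄Qbar).Point P.p).subtype.toAddMonoidHom)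

lemma mem_bigTorsion_iff {A : ValuationSubring Qbar} {x : FreyTorsion P} :
    x ∈ bigTorsion P A ↔ IsBigPoint A (x : (P.freyCurve⁄Qbar).Point) :=
  (exists_bigSubgroup (freyModel_map P A)).choose_spec _

/-- Inertia at `p` moves a point with no big multiple into the kernel of reduction. -/
theorem smul_sub_mem_bigTorsion {A : ValuationSubring Qbar} (hA : A.LiesOverPrime P.p) {σ : GQ}
    (hσ : σ ∈ A.inertiaSubgroupIn ℚ) (x : FreyTorsion P)
    (hx : ∀ j : ℕ, ¬ P.p ∣ j → j • x ∉ bigTorsion P A) :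
    σ • x - x ∈ bigTorsion P A := by
  haveI : Fact P.p.Prime := ⟨P.pp⟩
  have hin := actsInertially_of_mem hσ
  have hv : ∀ n : ℕ, 0 < n → n < P.p → A.valuation (n : Qbar) = 1 := fun n hn hnp => by
    simpa using val_intCast_eq_one (A := A) P.pp hA (n := (n : ℤ)) (fun h => by
      have := Nat.le_of_dvd hn (Int.natCast_dvd_natCast.1 h)
      omega)
  have hv2 : A.valuation (2 : Qbar) = 1 := by
    simpa using hv 2 (by omega) (by have := P.hp5; omega)
  have hv3 : A.valuation (3 : Qbar) = 1 := by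
    simpa using hv 3 (by omega) (by have := P.hp5; omega)
  have h256 : A.valuation (256 : Qbar) = 1 := by
    rw [show (256 : Qbar) = 2 ^ 8 by norm_num, map_pow, hv2, one_pow]
  obtain ⟨Q, hQ⟩ := x
  rw [mem_bigTorsion_iff]
  have hx' : ∀ j : ℕ, ¬ P.p ∣ j → ¬ IsBigPoint A (j • Q) := fun j hj hb =>
    hx j hj ((mem_bigTorsion_iff P).2 hb)
  show IsBigPoint A (σ • Q - Q)
  have t := torsion_nsmul P hQ
  have t' : P.p • (σ • Q) = 0 := torsion_nsmul P (smul_mem_torsionBy σ hQ)
  rcases Q with _ | ⟨x, y, h⟩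
  · exact absurd isBigPoint_zero (by
      simpa [← Affine.Point.zero_def] using hx' 1 P.pp.not_dvd_one)
  obtain ⟨h', e⟩ := smul_point_some P σ h
  rw [e] at t' ⊢
  by_cases hd : (P.p : ℤ) ∣ P.a * P.b * P.c
  · obtain ⟨m, hm⟩ := exists_val_intCast_eq_pow (A := A) P.pp hA P.habc0
    have hlt : A.valuation (algebraMap A Qbar (freyModel P A).Δ) < 1 := by
      rw [freyModel_val_Δ, h256, div_one]
      exact pow_lt_one₀ zero_le (pow_lt_one₀ zero_le (val_intCast_lt_one hA hd) P.hp0) two_ne_zero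
    have hc₄ : A.valuation (algebraMap A Qbar (freyModel P A).c₄) = 1 := by
      rw [freyModel_c₄]
      exact val_intCast_eq_one P.pp hA (not_dvd_c₄_of_dvd P P.pp hd)
    exact isBigPoint_sub_mult (freyModel P A) hlt (freyModel_Δ_ne_zero P A) hc₄ hv2 hv3
      (freyModel_map P A) (σ.commutes _) (σ.commutes _) (σ.commutes _) (σ.commutes _)
      (σ.commutes _) hin P.hp_odd (w := (P.p : Qbar) ^ (2 * m)) (by rw [map_pow, map_natCast])
      (by rw [freyModel_val_Δ, h256, div_one, hm, map_pow, ← pow_mul, ← pow_mul, ← pow_mul]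
          ring_nf)
      h h' t t' hx'
  · have hu : IsUnit (freyModel P A).Δ := by
      rw [A.valuation_eq_one_iff]
      show A.valuation (algebraMap A Qbar (freyModel P A).Δ) = 1
      rw [freyModel_val_Δ, val_intCast_eq_one P.pp hA hd, h256, one_pow, one_pow, div_one]
    exact isBigPoint_sub_good (freyModel P A) hu (freyModel_map P A) hin P.hp_odd h h' hx'

/-- The abscissa, with `0` at infinity. -/
noncomputable def abscissa : (P.freyCurve⁄Qbar).Point → Qbar
  | .zero => 0
  | .some x _ _ => x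

lemma abscissa_smul (σ : GQ) (Q : (P.freyCurve⁄Qbar).Point) :
    abscissa P (σ • Q) = σ (abscissa P Q) := by
  rcases Q with _ | ⟨x, y, h⟩
  · exact (_root_.map_zero σ).symm
  · obtain ⟨h', e⟩ := smul_point_some P σ h
    rw [e]; rfl

lemma isBigPoint_iff_of_ne_zero {A : ValuationSubring Qbar} {Q : (P.freyCurve⁄Qbar).Point}
    (hQ : Q ≠ 0) : IsBigPoint A Q ↔ abscissa P Q ∉ A := by
  rcases Q with _ | ⟨x, y, h⟩
  · exact absurd Affine.Point.zero_def.symm hQ
  · rw [isBigPoint_some, ← not_le, A.valuation_le_one_iff]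
    rfl

/-- A rational number big at a place above `q` has valuation at least `1 / v q`. -/
lemma one_le_val_mul_prime {A : ValuationSubring Qbar} {q : ℕ} (hq : q.Prime)
    (hA : A.LiesOverPrime q) (r : ℚ) (hr : 1 < A.valuation (algebraMap ℚ Qbar r)) :
    1 ≤ A.valuation (q : Qbar) * A.valuation (algebraMap ℚ Qbar r) := by
  have e : algebraMap ℚ Qbar r * ((r.den : ℤ) : Qbar) = ((r.num : ℤ) : Qbar) := by
    rw [← map_intCast (algebraMap ℚ Qbar), ← map_intCast (algebraMap ℚ Qbar) r.num, ← map_mul]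
    congr 1
    push_cast
    exact r.mul_den_eq_num
  have ev := congrArg A.valuation e
  rw [map_mul] at ev
  have hdvd : (q : ℤ) ∣ r.den := by
    by_contra h
    rw [val_intCast_eq_one hq hA h, mul_one] at ev
    exact not_lt.2 (ev ▸ val_intCast_le_one r.num) hr
  have hnum : A.valuation ((r.num : ℤ) : Qbar) = 1 := val_intCast_eq_one hq hA (fun h => by
    have h1 : q ∣ r.num.natAbs := Int.natCast_dvd.1 h
    have h2 : q ∣ r.den := Int.natCast_dvd_natCast.1 hdvd
    exact hq.not_dvd_one (r.reduced ▸ Nat.dvd_gcd h1 h2))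
  obtain ⟨d, hd⟩ := hdvd
  rw [hd, Int.cast_mul, Int.cast_natCast, map_mul] at ev
  calc 1 = A.valuation (algebraMap ℚ Qbar r) *
        (A.valuation (q : Qbar) * A.valuation (d : Qbar)) := (ev.trans hnum).symm
    _ ≤ A.valuation (algebraMap ℚ Qbar r) * (A.valuation (q : Qbar) * 1) :=
        mul_le_mul_right (mul_le_mul_right (val_intCast_le_one d) _) _
    _ = _ := by rw [mul_one, mul_comm]

lemma prod_abscissae_le_of_eq {A : ValuationSubring Qbar} {W : WeierstrassCurve A}
    {V : WeierstrassCurve Qbar} [V.IsElliptic] (hV : W.map (algebraMap A Qbar) = V)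
    {m : ℕ} (hm : 1 ≤ m) (S : Finset Qbar)
    (hS : ∀ x ∈ S, 1 < A.valuation x ∧ ∃ (y : Qbar) (h : V.toAffine.Nonsingular x y),
      (2 * m + 1) • Affine.Point.some x y h = 0) :
    A.valuation ((2 * m + 1 : ℕ) : Qbar) * ∏ x ∈ S, A.valuation x ≤ 1 := by
  subst hV
  exact prod_abscissae_le hm S hS

section Line

variable {P} [hp : Fact P.p.Prime] {N : Submodule (ZMod P.p) (FreyTorsion P)}
  (hN : IsGaloisStable ℚ N) (h1 : Module.finrank (ZMod P.p) N = 1)
  {z : FreyTorsion P} (hz : z ∈ N) (hz0 : z ≠ 0)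

include h1 hz hz0 in
lemma exists_smul_z {n : FreyTorsion P} (hn : n ∈ N) : ∃ c : ZMod P.p, n = c • z := by
  obtain ⟨c, hc⟩ := exists_smul_eq_of_finrank_eq_one h1 (x := ⟨z, hz⟩)
    (fun e => hz0 (congrArg Subtype.val e)) ⟨n, hn⟩
  exact ⟨c, (congrArg Subtype.val hc).symm⟩

include h1 hz hz0 in
/-- A line meets a subspace trivially or lies in it. -/
lemma mem_of_ne_zero_mem {B : Submodule (ZMod P.p) (FreyTorsion P)} {n : FreyTorsion P}
    (hn : n ∈ N) (hn0 : n ≠ 0) (hnB : n ∈ B) : z ∈ B := by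
  obtain ⟨c, rfl⟩ := exists_smul_z h1 hz hz0 hn
  have hc : c ≠ 0 := fun e => hn0 (by rw [e, zero_smul])
  have := B.smul_mem c⁻¹ hnB
  rwa [smul_smul, inv_mul_cancel₀ hc, one_smul] at this

include hN h1 hz hz0 in
/-- Bigness of `z` does not depend on the place above `p`. -/
lemma big_iff {A A' : ValuationSubring Qbar} (hA : A.LiesOverPrime P.p)
    (hA' : A'.LiesOverPrime P.p) : z ∈ bigTorsion P A → z ∈ bigTorsion P A' := by
  intro hb
  obtain ⟨g, rfl⟩ := exists_smul_eq_of_liesOverPrime P.pp hA hA'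
  have hzQ : (z : (P.freyCurve⁄Qbar).Point) ≠ 0 := fun e => hz0 (Subtype.ext e)
  have hgz : g⁻¹ • z ≠ 0 := fun e => hz0 (by
    have := congrArg (g • ·) e
    simpa [smul_smul] using this)
  have hgB : g⁻¹ • z ∈ bigTorsion P A := by
    obtain ⟨c, hc⟩ := exists_smul_z h1 hz hz0 (hN g⁻¹ z hz)
    rw [hc]
    exact Submodule.smul_mem _ c hb
  rw [mem_bigTorsion_iff, isBigPoint_iff_of_ne_zero P hzQ,
    ValuationSubring.mem_pointwise_smul_iff_inv_smul_mem]
  rw [mem_bigTorsion_iff, isBigPoint_iff_of_ne_zero P (fun e => hgz (Subtype.ext e))] at hgB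
  rwa [show ((g⁻¹ • z : FreyTorsion P) : (P.freyCurve⁄Qbar).Point) =
    g⁻¹ • (z : (P.freyCurve⁄Qbar).Point) from rfl, abscissa_smul] at hgB

include h1 hz hz0 in
/-- Inertia at `p` fixes `z` when it is not big. -/
lemma fix_of_not_big (hN : IsGaloisStable ℚ N) {A : ValuationSubring Qbar}
    (hA : A.LiesOverPrime P.p) {σ : GQ} (hσ : σ ∈ A.inertiaSubgroupIn ℚ)
    (hb : z ∉ bigTorsion P A) : σ • z = z := by
  by_contra hne
  refine hb (mem_of_ne_zero_mem h1 hz hz0 (N.sub_mem (hN σ z hz) hz) (sub_ne_zero.2 hne)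
    (smul_sub_mem_bigTorsion P hA hσ z fun j hj hjb => hb ?_))
  refine mem_of_ne_zero_mem h1 hz hz0 (N.nsmul_mem hz j) (fun e => ?_) hjb
  rw [← Nat.cast_smul_eq_nsmul (ZMod P.p), smul_eq_zero] at e
  exact hj ((ZMod.natCast_eq_zero_iff _ _).1 (e.resolve_right hz0))

include hN h1 hz hz0 in
/-- If `z` is big, no point outside `N` is. -/
lemma mem_of_big {A : ValuationSubring Qbar} (hA : A.LiesOverPrime P.p)
    (hb : z ∈ bigTorsion P A) {x : FreyTorsion P} (hx : x ∈ bigTorsion P A) : x ∈ N := by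
  classical
  by_contra hxN
  haveI : Finite (FreyTorsion P) :=
    finite_torsionBy (P.freyCurve⁄Qbar : WeierstrassCurve Qbar) P.p P.pp.one_le
  letI : Fintype N := Fintype.ofFinite _
  set S : Finset Qbar :=
    (Finset.univ.filter (fun n : N => n ≠ 0)).image (fun n => abscissa P n.1.1) with hS
  have hmem : ∀ n : FreyTorsion P, n ∈ N → n ≠ 0 → abscissa P n.1 ∈ S := fun n hn hn0 =>
    Finset.mem_image.2 ⟨⟨n, hn⟩, Finset.mem_filter.2
      ⟨Finset.mem_univ _, fun e => hn0 (congrArg Subtype.val e)⟩, rfl⟩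
  have hsub : ∀ n : FreyTorsion P, n ∈ N → n ∈ bigTorsion P A := fun n hn => by
    obtain ⟨c, rfl⟩ := exists_smul_z h1 hz hz0 hn
    exact Submodule.smul_mem _ c hb
  have hbig : ∀ n : FreyTorsion P, n ≠ 0 → n ∈ bigTorsion P A →
      1 < A.valuation (abscissa P n.1) ∧ ∃ (y : Qbar)
        (h : (P.freyCurve⁄Qbar).Nonsingular (abscissa P n.1) y),
        P.p • Affine.Point.some _ y h = 0 := by
    rintro ⟨_ | ⟨a, b, h⟩, ht⟩ h0 hn
    · exact absurd (Subtype.ext Affine.Point.zero_def.symm) h0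
    · rw [mem_bigTorsion_iff] at hn
      exact ⟨(isBigPoint_some h).1 hn, b, h, torsion_nsmul P ht⟩
  have hSbig : ∀ a ∈ S, 1 < A.valuation a ∧ ∃ (y : Qbar)
      (h : (P.freyCurve⁄Qbar).Nonsingular a y), P.p • Affine.Point.some a y h = 0 := by
    intro a ha
    obtain ⟨n, hn, rfl⟩ := Finset.mem_image.1 ha
    exact hbig n.1 (fun e => (Finset.mem_filter.1 hn).2 (Subtype.ext e)) (hsub _ n.2)
  have hstab : ∀ σ : GQ, S.image σ = S := fun σ => by
    refine Finset.eq_of_subset_of_card_le ?_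
      (by rw [Finset.card_image_of_injective _ σ.injective])
    intro a ha
    obtain ⟨_, hb, rfl⟩ := Finset.mem_image.1 ha
    obtain ⟨n, hn, rfl⟩ := Finset.mem_image.1 hb
    rw [← abscissa_smul]
    refine hmem (σ • n.1) (hN σ _ n.2) fun e => (Finset.mem_filter.1 hn).2 (Subtype.ext ?_)
    have := congrArg (σ⁻¹ • ·) e
    simpa using this
  obtain ⟨r, hr⟩ := (InfiniteGalois.mem_range_algebraMap_iff_fixed (∏ a ∈ S, a)).2 fun σ => by
    rw [map_prod]
    conv_rhs => rw [← hstab σ, Finset.prod_image σ.injective.injOn]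
  have hzS := hmem z hz hz0
  have hgt : 1 < A.valuation (∏ a ∈ S, a) := by
    rw [map_prod, ← Finset.mul_prod_erase S _ hzS]
    exact one_lt_mul_of_lt_of_le (hSbig _ hzS).1
      (Finset.one_le_prod' fun a ha => (hSbig a (Finset.mem_of_mem_erase ha)).1.le)
  rw [← hr] at hgt
  have hge := one_le_val_mul_prime P.pp hA r hgt
  rw [hr] at hge
  have hx0 : x ≠ 0 := fun e => hxN (e ▸ N.zero_mem)
  have hxS : abscissa P x.1 ∉ S := by
    intro hin
    obtain ⟨n, hn, e⟩ := Finset.mem_image.1 hin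
    rcases hx' : x.1 with _ | ⟨a, b, h⟩
    · exact hx0 (Subtype.ext hx')
    rcases hn' : n.1.1 with _ | ⟨a', b', h'⟩
    · exact (Finset.mem_filter.1 hn).2 (Subtype.ext (Subtype.ext hn'))
    rw [hx', hn'] at e
    rcases (Affine.Point.X_eq_iff (h₁ := h) (h₂ := h')).1 e.symm with e' | e'
    · rw [← hx', ← hn'] at e'
      exact hxN (Subtype.ext e' ▸ n.2)
    · rw [← hx', ← hn', ← NegMemClass.coe_neg] at e'
      exact hxN (Subtype.ext e' ▸ N.neg_mem n.2)
  obtain ⟨m, hm⟩ := P.hp_odd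
  have key := prod_abscissae_le_of_eq (freyModel_map P A) (m := m)
    (by have := P.hp5; omega) (insert (abscissa P x.1) S) (by
      intro a ha
      rw [← hm]
      rcases Finset.mem_insert.1 ha with rfl | ha
      · exact hbig x hx0 hx
      · exact hSbig a ha)
  rw [Finset.prod_insert hxS, ← hm, ← mul_assoc, mul_comm (A.valuation (P.p : Qbar)), mul_assoc,
    ← map_prod] at key
  exact not_lt.2 key (one_lt_mul_of_lt_of_le (hbig x hx0 hx).1 hge)

include hN h1 hz hz0 in
/-- Inertia at `p` acts trivially on `E[p]/N` when `z` is big. -/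
lemma smul_sub_mem_of_big {A : ValuationSubring Qbar} (hA : A.LiesOverPrime P.p) {σ : GQ}
    (hσ : σ ∈ A.inertiaSubgroupIn ℚ) (hb : z ∈ bigTorsion P A) (x : FreyTorsion P) :
    σ • x - x ∈ N := by
  by_cases hx : x ∈ N
  · exact N.sub_mem (hN σ x hx) hx
  refine mem_of_big hN h1 hz hz0 hA hb (smul_sub_mem_bigTorsion P hA hσ x fun j hj hjb => hx ?_)
  have hj' : (j : ZMod P.p) ≠ 0 := fun e => hj ((ZMod.natCast_eq_zero_iff _ _).1 e)
  have := N.smul_mem (j : ZMod P.p)⁻¹ (mem_of_big hN h1 hz hz0 hA hb hjb)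
  rwa [← Nat.cast_smul_eq_nsmul (ZMod P.p), smul_smul, inv_mul_cancel₀ hj', one_smul] at this

include hN h1 hz hz0 in
/-- Inertia at `2` fixes `N` and acts trivially on `E[p]/N`. -/
lemma two_fix {A : ValuationSubring Qbar} (hA : A.LiesOverPrime 2) {σ : GQ}
    (hσ : σ ∈ A.inertiaSubgroupIn ℚ) : σ • z = z ∧ ∀ x : FreyTorsion P, σ • x - x ∈ N := by
  have eig : ∀ (x : FreyTorsion P) (c : ZMod P.p), σ • x = c • x → σ • x = x := fun x c h =>
    two_eigen P hA hσ x c.val (by rwa [← Nat.cast_smul_eq_nsmul (ZMod P.p), ZMod.natCast_rightInverse])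
  obtain ⟨c, hc⟩ := exists_smul_z h1 hz hz0 (hN σ z hz)
  have hfz := eig z c hc
  refine ⟨hfz, fun x => ?_⟩
  by_contra hne
  have hx : x ∉ N := fun hx => hne (N.sub_mem (hN σ x hx) hx)
  have h2 : Module.finrank (ZMod P.p) (FreyTorsion P) = 2 :=
    finrank_torsionBy (K := Qbar) P.freyCurve P.p
  haveI : Finite (FreyTorsion P) :=
    finite_torsionBy (P.freyCurve⁄Qbar : WeierstrassCurve Qbar) P.p P.pp.one_le
  have hq : Module.finrank (ZMod P.p) (FreyTorsion P ⧸ N) = 1 := by
    have := N.finrank_quotient_add_finrank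
    rw [h1, h2] at this
    omega
  obtain ⟨b, hb⟩ := exists_smul_eq_of_finrank_eq_one hq
    (x := Submodule.Quotient.mk (p := N) x)
    (fun e => hx ((Submodule.Quotient.mk_eq_zero N).1 e))
    (Submodule.Quotient.mk (p := N) (σ • x))
  rw [← Submodule.Quotient.mk_smul, Submodule.Quotient.eq] at hb
  obtain ⟨k, hk⟩ := exists_smul_z h1 hz hz0 (N.sub_mem N.zero_mem hb)
  rw [zero_sub, neg_sub] at hk
  have hk' : σ • x = b • x + k • z := by rw [← hk]; abel
  have hb1 : b ≠ 1 := fun e => hne (by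
    rw [hk', e, one_smul, add_sub_cancel_left]
    exact N.smul_mem k hz)
  have hb1' : b - 1 ≠ 0 := sub_ne_zero.2 hb1
  have hsmul : σ • (x + (k / (b - 1)) • z) = b • (x + (k / (b - 1)) • z) := by
    have hlin : σ • ((k / (b - 1)) • z) = (k / (b - 1)) • z := by
      conv_lhs => rw [← ZMod.natCast_rightInverse (k / (b - 1)), Nat.cast_smul_eq_nsmul,
        smul_comm, hfz, ← Nat.cast_smul_eq_nsmul (ZMod P.p), ZMod.natCast_rightInverse]
    rw [smul_add, hlin, hk', smul_add, smul_smul, add_assoc, ← add_smul]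
    congr 2
    field_simp
    ring
  have hfix := eig _ b hsmul
  rw [hsmul] at hfix
  have h0 : (b - 1) • (x + (k / (b - 1)) • z) = 0 := by rw [sub_smul, one_smul, hfix, sub_self]
  rw [smul_eq_zero] at h0
  exact hx (by
    rw [eq_neg_of_add_eq_zero_left (h0.resolve_left hb1')]
    exact N.neg_mem (N.smul_mem _ hz))

include hz0 in
/-- `E[p]` has no rational point. -/
lemma not_forall_fixed : ¬ ∀ σ : GQ, σ • z = z := by
  intro hfix
  obtain ⟨A, hA⟩ := exists_liesOverPrime Nat.prime_two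
  obtain ⟨Q, hQ⟩ := z
  have t := torsion_nsmul P hQ
  rcases Q with _ | ⟨x, y, h⟩
  · exact hz0 (Subtype.ext Affine.Point.zero_def.symm)
  have hfx : ∀ σ : GQ, σ x = x := fun σ => by
    have e1 := congrArg (fun w : FreyTorsion P => abscissa P w.1) (hfix σ)
    exact (abscissa_smul P σ (Affine.Point.some x y h)).symm.trans e1
  obtain ⟨r, hr⟩ := (InfiniteGalois.mem_range_algebraMap_iff_fixed x).2 hfx
  have h2 : A.valuation (2 : Qbar) < 1 := (ValuationSubring.mem_nonunits_iff A).1 hA
  have hp2 : ¬ 2 ∣ P.p := fun hd => by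
    have := (Nat.prime_dvd_prime_iff_eq Nat.prime_two P.pp).1 hd
    have := P.hp5
    omega
  have hpu : IsUnit (P.p : A) := isUnit_natCast Nat.prime_two hA hp2
  have h16 : A.valuation (16 : Qbar) = A.valuation (2 : Qbar) ^ 4 := by
    rw [← map_pow]; norm_num
  have h20 : A.valuation (2 : Qbar) ≠ 0 := (_root_.map_ne_zero _).2 two_ne_zero
  -- the valuation of `a₄`
  have hb2 : (2 : ℤ) ∣ P.b := (ZMod.intCast_zmod_eq_zero_iff_dvd P.b 2).1 P.hb2
  obtain ⟨k, hk⟩ := exists_val_intCast_eq_pow (A := A) Nat.prime_two hA P.hb0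
  rw [Nat.cast_ofNat] at hk
  have hk0 : k ≠ 0 := fun e => by
    have := val_intCast_lt_one (A := A) (q := 2) hA (by exact_mod_cast hb2)
    rw [hk, e, pow_zero] at this
    exact lt_irrefl _ this
  have hcop : ∀ n : ℤ, gcd P.b n = 1 → A.valuation ((n : ℤ) : Qbar) = 1 := fun n hn =>
    val_intCast_eq_one Nat.prime_two hA fun hd => by
      have := dvd_gcd hb2 (by exact_mod_cast hd : (2 : ℤ) ∣ n)
      rw [hn] at this
      omega
  have hva := hcop P.a (by rw [gcd_comm]; exact P.hgcdab)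
  have hvc := hcop P.c P.hgcdbc
  obtain ⟨m, hm⟩ : ∃ m, k * P.p = m + 4 := ⟨k * P.p - 4, by
    have := Nat.le_mul_of_pos_left P.p (Nat.pos_of_ne_zero hk0)
    have := P.hp5
    omega⟩
  have ha₄ : A.valuation (algebraMap A Qbar (freyModel P A).a₄) = A.valuation (2 : Qbar) ^ m := by
    rw [← map_a₄, freyModel_map, show (P.freyCurve⁄Qbar).a₄ = algebraMap ℚ Qbar P.freyCurve.a₄
      from rfl, show P.freyCurve.a₄ = ((-(P.a ^ P.p) * P.b ^ P.p : ℤ) : ℚ) / 16 by
        simp only [FreyPackage.freyCurve]; push_cast; ring,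
      map_div₀, map_intCast, map_ofNat, map_div₀, h16]
    push_cast
    rw [map_mul, Valuation.map_neg, map_pow, map_pow, hva, one_pow, one_mul, hk, ← pow_mul, hm,
      pow_add, mul_div_assoc, div_self (pow_ne_zero _ h20), mul_one]
  have hΔ : A.valuation (algebraMap A Qbar (freyModel P A).Δ) =
      A.valuation (algebraMap A Qbar (freyModel P A).a₄) ^ 2 := by
    rw [freyModel_val_Δ, ha₄, show (256 : Qbar) = 2 ^ 8 by norm_num, map_pow]
    push_cast
    rw [map_mul, map_mul, hva, hvc, one_mul, mul_one, hk, ← pow_mul, ← pow_mul,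
      show k * (P.p * 2) = m * 2 + 8 by rw [← mul_assoc, hm]; ring, pow_add, mul_div_assoc,
      div_self (pow_ne_zero _ h20), mul_one, pow_mul]
  have hpm : ¬ P.p ∣ 2 * m := fun hd => by
    have h8 : P.p ∣ 2 * m + 8 := ⟨2 * k, by linarith⟩
    have : P.p ∣ 2 ^ 3 := by
      have := Nat.dvd_sub h8 hd
      rwa [Nat.add_sub_cancel_left] at this
    have := Nat.le_of_dvd two_pos (P.pp.dvd_of_dvd_pow this)
    have := P.hp5
    omega
  have hm1 : 1 ≤ m := by
    have := Nat.le_mul_of_pos_left P.p (Nat.pos_of_ne_zero hk0)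
    have := P.hp5
    omega
  haveI : ((freyModel P A).map (algebraMap A Qbar)).IsElliptic := by
    rw [freyModel_map]; infer_instance
  have hn : ((freyModel P A).map (algebraMap A Qbar)).toAffine.Nonsingular x y := by
    rw [freyModel_map]; exact h
  have tn : P.p • Affine.Point.some x y hn = 0 := by
    have := congrArg (sigmaPoint (RingHom.id Qbar)
      (show (P.freyCurve⁄Qbar : WeierstrassCurve Qbar).map (RingHom.id Qbar) =
        (freyModel P A).map (algebraMap A Qbar) by rw [freyModel_map]; exact map_id _)) t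
    rwa [map_nsmul, _root_.map_zero, sigmaPoint_some] at this
  refine two_no_rational (freyModel P A) h2 (map_one _) (_root_.map_zero _) (_root_.map_zero _) hm1 ha₄ hΔ hpm
    P.hp5 hpu hn tn ?_
  have hx1 := val_torsion_x A (freyModel P A) hpu hn tn
  rcases eq_or_ne x 0 with hx0 | hx0
  · exact Or.inr (Or.inl hx0)
  have hr0 : r ≠ 0 := by
    rintro rfl
    exact hx0 (by rw [← hr, _root_.map_zero])
  have e : x * ((r.den : ℤ) : Qbar) = ((r.num : ℤ) : Qbar) := by
    rw [← hr, ← map_intCast (algebraMap ℚ Qbar), ← map_intCast (algebraMap ℚ Qbar) r.num,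
      ← map_mul]
    congr 1
    push_cast
    exact r.mul_den_eq_num
  have ev := congrArg A.valuation e
  rw [map_mul] at ev
  have hden : ¬ (2 : ℤ) ∣ r.den := fun hd => by
    have h1' : A.valuation ((r.num : ℤ) : Qbar) < 1 := by
      rw [← ev]
      exact val_mul_lt_one' _ hx1 (val_intCast_lt_one hA (by exact_mod_cast hd))
    have hn' : (2 : ℤ) ∣ r.num := by
      by_contra hnd
      exact h1'.ne (val_intCast_eq_one Nat.prime_two hA (by exact_mod_cast hnd))
    exact Nat.prime_two.not_dvd_one (r.reduced ▸ Nat.dvd_gcd (Int.natCast_dvd.1 hn')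
      (Int.natCast_dvd_natCast.1 hd))
  have hd1 : A.valuation ((r.den : ℤ) : Qbar) = 1 :=
    val_intCast_eq_one Nat.prime_two hA (by exact_mod_cast hden)
  rw [hd1, mul_one] at ev
  obtain ⟨i, hi⟩ := exists_val_intCast_eq_pow (A := A) Nat.prime_two hA (Rat.num_ne_zero.2 hr0)
  rw [Nat.cast_ofNat] at hi
  rcases Nat.eq_zero_or_pos i with h0 | h0
  · refine Or.inl ⟨by rw [ev, hi, h0, pow_zero], ?_⟩
    have hnum : ¬ (2 : ℤ) ∣ r.num := fun hd => by
      have := val_intCast_lt_one (A := A) (q := 2) hA (by exact_mod_cast hd)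
      rw [hi, h0, pow_zero] at this
      exact lt_irrefl _ this
    have h3 : A.valuation ((x - 1) * ((r.den : ℤ) : Qbar)) < 1 := by
      rw [sub_mul, one_mul, e, ← Int.cast_sub]
      exact val_intCast_lt_one (q := 2) hA (by omega)
    rwa [map_mul, hd1, mul_one] at h3
  · exact Or.inr (Or.inr ⟨i, h0, ev.trans hi⟩)

end Line

/-- A reducible Frey representation has a stable line with trivial quotient action. -/
theorem frey_reducible_cofixed (P : FreyPackage)
    (hred : ¬ GaloisRepIsIrreducible (K := Qbar) ℚ P.freyCurve P.p) :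
    HasGaloisStableCofixedLine (K := Qbar) ℚ P.freyCurve P.p := by
  haveI : Fact P.p.Prime := ⟨P.pp⟩
  obtain ⟨N, hN, h1⟩ := (not_irreducible_iff_exists_stable_line ℚ P.freyCurve P.p).1 hred
  have hNbot : N ≠ ⊥ := by
    rintro rfl
    rw [finrank_bot] at h1
    omega
  obtain ⟨z, hz, hz0⟩ := (Submodule.ne_bot_iff N).1 hNbot
  obtain ⟨L, hLfin, hL⟩ := exists_finite_level ℚ P.freyCurve (K := Qbar) P.p P.pp.one_le
  have hL' : ∀ σ : GQ, (∀ x ∈ L, σ x = x) → ∀ x : FreyTorsion P, σ • x = x := hL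
  have hunr : ∀ (q : ℕ), q.Prime → q ≠ 2 → q ≠ P.p → ∀ A : ValuationSubring Qbar,
      A.LiesOverPrime q → ∀ σ ∈ A.inertiaSubgroupIn ℚ, ∀ x : FreyTorsion P, σ • x = x :=
    fun q hq h2 hp => frey_unramified P hq h2 hp
  have hNtop : N ≠ ⊤ := by
    rintro rfl
    rw [finrank_top, finrank_torsionBy (K := Qbar) P.freyCurve P.p] at h1
    omega
  by_cases hcase : ∃ A : ValuationSubring Qbar, A.LiesOverPrime P.p ∧ z ∈ bigTorsion P A
  · refine ⟨N, hN, hNbot, hNtop, fun σ x => ?_⟩
    obtain ⟨A₀, hA₀, hb₀⟩ := hcase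
    letI act : MulAction GQ (FreyTorsion P ⧸ N) :=
      { smul := fun τ q => Quotient.liftOn' q (fun w => Submodule.Quotient.mk (τ • w))
          (fun a b hab => by
            rw [Submodule.Quotient.eq, ← smul_sub]
            exact hN τ _ ((Submodule.quotientRel_def N).1 hab))
        one_smul := by
          rintro ⟨w⟩
          exact congrArg (Submodule.Quotient.mk (p := N)) (one_smul GQ w)
        mul_smul := by
          rintro τ τ' ⟨w⟩
          exact congrArg (Submodule.Quotient.mk (p := N)) (mul_smul τ τ' w) }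
    have hmk : ∀ (τ : GQ) (w : FreyTorsion P),
        τ • (Submodule.Quotient.mk (p := N) w) = Submodule.Quotient.mk (τ • w) := fun _ _ => rfl
    have hρ : ∀ τ : GQ, MulAction.toPermHom GQ (FreyTorsion P ⧸ N) τ = 1 ↔
        ∀ w : FreyTorsion P, τ • w - w ∈ N := by
      intro τ
      rw [Equiv.ext_iff]
      constructor
      · intro h w
        exact (Submodule.Quotient.eq N).1 ((hmk τ w).symm.trans (h (Submodule.Quotient.mk w)))
      · intro h q
        obtain ⟨w, rfl⟩ := Submodule.Quotient.mk_surjective N q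
        exact (hmk τ w).trans ((Submodule.Quotient.eq N).2 (h w))
    have key := eq_one_of_unramified (MulAction.toPermHom GQ (FreyTorsion P ⧸ N)) L
      (fun τ hτ => (hρ τ).2 fun w => by rw [hL' τ hτ w, sub_self]; exact N.zero_mem)
      (fun q hq A hA τ hτ => (hρ τ).2 fun w => by
        rcases eq_or_ne q 2 with rfl | h2
        · exact (two_fix hN h1 hz hz0 hA hτ).2 w
        rcases eq_or_ne q P.p with rfl | hp
        · exact smul_sub_mem_of_big hN h1 hz hz0 hA hτ (big_iff hN h1 hz hz0 hA₀ hA hb₀) w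
        · rw [hunr q hq h2 hp A hA τ hτ w, sub_self]; exact N.zero_mem)
    exact (hρ σ).1 (by rw [key]; rfl) x
  · exfalso
    push Not at hcase
    letI act : MulAction GQ N :=
      { smul := fun τ w => ⟨τ • w.1, hN τ _ w.2⟩
        one_smul := fun w => Subtype.ext (one_smul GQ w.1)
        mul_smul := fun τ τ' w => Subtype.ext (mul_smul τ τ' w.1) }
    have hρ : ∀ τ : GQ, τ • z = z → MulAction.toPermHom GQ N τ = 1 := by
      intro τ h
      refine Equiv.ext fun w => Subtype.ext ?_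
      obtain ⟨c, hc⟩ := exists_smul_z h1 hz hz0 w.2
      show τ • w.1 = w.1
      rw [hc, ← ZMod.natCast_rightInverse c, Nat.cast_smul_eq_nsmul, smul_comm, h]
    have key := eq_one_of_unramified (MulAction.toPermHom GQ N) L
      (fun τ hτ => hρ τ (hL' τ hτ z))
      (fun q hq A hA τ hτ => hρ τ (by
        rcases eq_or_ne q 2 with rfl | h2
        · exact (two_fix hN h1 hz hz0 hA hτ).1
        rcases eq_or_ne q P.p with rfl | hp
        · exact fix_of_not_big h1 hz hz0 hN hA hτ (hcase A hA)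
        · exact hunr q hq h2 hp A hA τ hτ z))
    exact not_forall_fixed hz0 fun τ => by
      have := congrArg (fun e : Equiv.Perm N => (e ⟨z, hz⟩).1) (DFunLike.congr_fun key τ)
      exact this

end Fermat.Agent.EC
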