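import Fermat.Agent.EC.FrobeniusTrace
import Fermat.Agent.EC.Reducible
import Fermat.Agent.GalRep.Assembly
import Fermat.Agent.GalRep.Cyclo

/-!
# The determinant of the torsion of an elliptic curve is the cyclotomic character
-/

set_option autoImplicit false

namespace Fermat.Agent.EC

open WeierstrassCurve WeierstrassCurve.Affine.Point
open scoped WeierstrassCurve.Affine

local notation "Qb" => AlgebraicClosure ℚ
local notation "GQ" => (AlgebraicClosure ℚ) ≃ₐ[ℚ] (AlgebraicClosure ℚ)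

variable (W : WeierstrassCurve ℤ) (p : ℕ) [Fact p.Prime]

/-- The determinant of the mod `p` representation is the mod `p` cyclotomic character. -/
theorem det_torsion_eq_cyc (hp2 : p ≠ 2) (hΔ0 : W.Δ ≠ 0) (σ : GQ) :
    LinearMap.det (galoisRepModuleEnd (K := Qb) ℚ (W.map (Int.castRingHom ℚ)).toAffine p σ) =
      PadicInt.toZMod (GalRep.cyc p σ : ℤ_[p]) := by
  classical
  have hp : p.Prime := Fact.out
  haveI : ((W.map (Int.castRingHom ℚ))⁄Qb).IsElliptic := by
    rw [show ((W.map (Int.castRingHom ℚ))⁄Qb : WeierstrassCurve Qb) = W.map (Int.castRingHom Qb) by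
      ext <;> simp [WeierstrassCurve.baseChange], isElliptic_iff, map_Δ, eq_intCast,
      isUnit_iff_ne_zero]
    exact_mod_cast hΔ0
  obtain ⟨L, hL, hfix⟩ := exists_finite_level (K := Qb) ℚ
    (W.map (Int.castRingHom ℚ)).toAffine p hp.one_le
  obtain ⟨F, hF, hc⟩ := GalRep.exists_cyc_level p 1
  obtain ⟨ℓ, hℓ, hbad, A, hA, φ, hφ, b, hag⟩ :=
    GalRep.frobeniusPowDensity (L ⊔ F) ({p} ∪ W.Δ.natAbs.primeFactors) σ
  simp only [Finset.mem_union, Finset.mem_singleton, not_or] at hbad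
  have hgood : W.IsGoodPrimeFor ℓ := by
    intro h
    exact hbad.2 (Nat.mem_primeFactors.2 ⟨hℓ, Int.natCast_dvd.1 h, Int.natAbs_ne_zero.2 hΔ0⟩)
  have hd := (galoisTrace_frobenius W hℓ hgood hA hφ hp hp2 (Ne.symm hbad.1)).2
  have hτ : ∀ x ∈ L ⊔ F, ((φ ^ b)⁻¹ * σ) x = x := fun x hx => by
    rw [AlgEquiv.mul_apply, ← hag x hx]
    exact (φ ^ b).symm_apply_apply x
  set τ := (φ ^ b)⁻¹ * σ with hτdef
  have e : galoisRepModuleEnd (K := Qb) ℚ (W.map (Int.castRingHom ℚ)).toAffine p τ = 1 := by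
    refine LinearMap.ext fun Q => ?_
    rw [galoisRepModuleEnd_apply, Module.End.one_apply]
    exact hfix τ (fun x hx => hτ x ((le_sup_left : L ≤ L ⊔ F) hx)) Q
  have e' : PadicInt.toZMod (GalRep.cyc p τ : ℤ_[p]) = 1 := by
    obtain ⟨c, hc'⟩ := hc τ fun x hx => hτ x ((le_sup_right : F ≤ L ⊔ F) hx)
    rw [sub_eq_iff_eq_add'.1 hc', map_add, map_one, map_mul, map_pow, map_natCast,
      ZMod.natCast_self, pow_one, zero_mul, add_zero]
  rw [show σ = φ ^ b * τ by rw [hτdef, mul_inv_cancel_left], map_mul, map_pow, e, mul_one,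
    map_pow, hd, map_mul, map_pow, Units.val_mul, Units.val_pow_eq_pow_val,
    GalRep.cyc_frobenius p hℓ (Ne.symm hbad.1).symm hA hφ, map_mul, map_pow, e', mul_one,
    map_natCast]

/-- For the Frey curve. -/
theorem det_freyTorsion (P : FreyPackage) [Fact P.p.Prime] (σ : GQ) :
    LinearMap.det (galoisRepModuleEnd (K := Qb) ℚ P.freyCurve.toAffine P.p σ) =
      PadicInt.toZMod (GalRep.cyc P.p σ : ℤ_[P.p]) := by
  have h0 : P.freyCurveInt.Δ ≠ 0 := fun e => by
    have h := map_Δ P.freyCurveInt (Int.castRingHom ℚ)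
    rw [Mazur.freyCurveInt_map P, e, _root_.map_zero] at h
    exact freyCurve_Δ_ne_zero P h
  have := det_torsion_eq_cyc P.freyCurveInt P.p (by have := P.hp5; omega) h0 σ
  rwa [Mazur.freyCurveInt_map P] at this

end Fermat.Agent.EC
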