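import Fermat.Agent.EC.Degree.Frobenius
import Fermat.Agent.EC.Local.ReductionHom
import Fermat.Agent.EC.Rep
import Fermat.Agent.Galois.Places
import Fermat.Prelude.Def_FLTPrelim_Modularity
import Fermat.Prelude.Def_EllipticCurve_FrobeniusTrace

/-!
# Frobenius on `E[p]` at a good prime, and the Hasse bound

For an integral model `W`, a good prime `ℓ`, an odd prime `p ≠ ℓ` and a Frobenius `σ` at a place
above `ℓ`: `σ` has trace `a_ℓ` and determinant `ℓ` on `E[p]`; and `a_ℓ² ≤ 4ℓ`.
-/

set_option autoImplicit false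
set_option linter.unusedSectionVars false

namespace Fermat.Agent.EC

open WeierstrassCurve WeierstrassCurve.Affine.Point IsLocalRing Fermat.Agent.Galois
open scoped WeierstrassCurve.Affine

local notation "Qb" => AlgebraicClosure ℚ

section Finite

variable {ℓ : ℕ} [hℓ : Fact ℓ.Prime] {K : Type*} [Field K] [IsAlgClosed K] [CharP K ℓ]
  [DecidableEq K] (V : WeierstrassCurve (ZMod ℓ))

lemma map_frobenius_eq :
    (V.map (ZMod.castHom (dvd_refl ℓ) K)).map (frobenius K ℓ) =
      V.map (ZMod.castHom (dvd_refl ℓ) K) := by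
  rw [WeierstrassCurve.map_map]
  congr 1
  exact RingHom.ext_zmod _ _

lemma mem_range_of_pow_eq {x : K} (hx : x ^ ℓ = x) :
    ∃ c : ZMod ℓ, ZMod.castHom (dvd_refl ℓ) K c = x := by
  classical
  set f := ZMod.castHom (dvd_refl ℓ) K
  have hp : (Polynomial.X ^ ℓ - Polynomial.X : Polynomial K) ≠ 0 :=
    FiniteField.X_pow_card_sub_X_ne_zero K hℓ.out.one_lt
  have hsub : Finset.univ.image f ⊆ (Polynomial.X ^ ℓ - Polynomial.X : Polynomial K).roots.toFinset := by
    intro z hz
    obtain ⟨c, -, rfl⟩ := Finset.mem_image.1 hz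
    simp [hp, sub_eq_zero, ← map_pow, ZMod.pow_card]
  have hcard : (Polynomial.X ^ ℓ - Polynomial.X : Polynomial K).roots.toFinset.card ≤
      (Finset.univ.image f).card := by
    rw [Finset.card_image_of_injective _ f.injective, Finset.card_univ, ZMod.card]
    exact (Multiset.toFinset_card_le _).trans ((Polynomial.card_roots' _).trans
      (FiniteField.X_pow_card_sub_X_natDegree_eq K hℓ.out.one_lt).le)
  have hmem : x ∈ (Polynomial.X ^ ℓ - Polynomial.X : Polynomial K).roots.toFinset := by
    simp [hp, hx]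
  rw [← Finset.eq_of_subset_of_card_le hsub hcard] at hmem
  obtain ⟨c, -, hc⟩ := Finset.mem_image.1 hmem
  exact ⟨c, hc⟩

/-- Points fixed by Frobenius are the rational points. -/
theorem natCard_frobFixed [(V.map (ZMod.castHom (dvd_refl ℓ) K)).IsElliptic] :
    Nat.card {P : (V.map (ZMod.castHom (dvd_refl ℓ) K)).toAffine.Point //
      Degree.frobPt ℓ (map_frobenius_eq V) P = P} = V.card := by
  set f := ZMod.castHom (dvd_refl ℓ) K with hf
  let F : V.toAffine.Point → {P : (V.map f).toAffine.Point //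
      Degree.frobPt ℓ (map_frobenius_eq V) P = P} := fun P => ⟨sigmaPoint f rfl P, by
    rcases P with _ | ⟨x, y, h⟩
    · rfl
    · show Affine.Point.some _ _ _ = Affine.Point.some (f x) (f y) _
      rw [Affine.Point.some.injEq]
      simp [frobenius_def, ← map_pow, ZMod.pow_card]⟩
  refine (Nat.card_congr (Equiv.ofBijective F ⟨?_, ?_⟩)).symm
  · intro P Q e
    have e' : sigmaPoint f rfl P = sigmaPoint f rfl Q := congrArg Subtype.val e
    rcases P with _ | ⟨x, y, h⟩ <;> rcases Q with _ | ⟨x', y', h'⟩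
    · rfl
    · exact absurd e'.symm (Affine.Point.some_ne_zero _)
    · exact absurd e' (Affine.Point.some_ne_zero _)
    · rw [sigmaPoint_some, sigmaPoint_some, Affine.Point.some.injEq] at e'
      rw [Affine.Point.some.injEq]
      exact ⟨f.injective e'.1, f.injective e'.2⟩
  · rintro ⟨P, hP⟩
    rcases P with _ | ⟨x, y, h⟩
    · exact ⟨0, Subtype.ext rfl⟩
    · have hxy := (Affine.Point.some.injEq ..).mp hP
      obtain ⟨a, rfl⟩ := mem_range_of_pow_eq (ℓ := ℓ) (x := x) hxy.1
      obtain ⟨b, rfl⟩ := mem_range_of_pow_eq (ℓ := ℓ) (x := y) hxy.2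
      exact ⟨.some a b ((Affine.map_nonsingular V.toAffine f.injective a b).1 h), Subtype.ext rfl⟩

end Finite

section Place

variable (W : WeierstrassCurve ℤ) {ℓ : ℕ} (hℓ : ℓ.Prime) (hgood : ¬ (ℓ : ℤ) ∣ W.Δ)
  {A : ValuationSubring Qb} (hA : A.LiesOverPrime ℓ)

local notation "WA" => W.map (Int.castRingHom A)

include hℓ hA

lemma intCast_residue_eq_zero_iff (m : ℤ) : residue A (m : A) = 0 ↔ (ℓ : ℤ) ∣ m := by
  rw [← map_intCast (zbarToPlace A) m, residue_zbar_eq_zero_iff, intCast_mem_placeCenter hℓ hA]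

lemma charP_residue : CharP (ResidueField A) ℓ := by
  refine ⟨fun m => ?_⟩
  have := intCast_residue_eq_zero_iff hℓ hA (m : ℤ)
  rw [Int.cast_natCast, map_natCast, Int.natCast_dvd_natCast] at this
  exact this

lemma isUnit_intCast {m : ℤ} (hm : ¬ (ℓ : ℤ) ∣ m) : IsUnit (m : A) := by
  by_contra h
  exact hm ((intCast_residue_eq_zero_iff hℓ hA m).1 ((residue_eq_zero_iff _).2 h))

include hgood in
lemma isUnit_delta_place : IsUnit (WA).Δ := by
  rw [WeierstrassCurve.map_Δ, eq_intCast]
  exact isUnit_intCast hℓ hA hgood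

end Place

lemma baseChange_eq_map (W : WeierstrassCurve ℤ) (A : ValuationSubring Qb) :
    ((W.map (Int.castRingHom ℚ))⁄Qb : WeierstrassCurve Qb) =
      (W.map (Int.castRingHom A)).map (algebraMap A Qb) := by
  ext <;> simp [WeierstrassCurve.baseChange]

/-- An endomorphism of a plane killed by `X² - aX + d`, with trace forced in the scalar case. -/
theorem trace_det_of_quadratic {F V : Type*} [Field F] [AddCommGroup V] [Module F V]
    (hV : Module.finrank F V = 2) (T : Module.End F V) (a d : F)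
    (hT : ∀ v, T (T v) - a • T v + d • v = 0)
    (hscalar : ∀ m : F, (∀ v, T v = m • v) → a = 2 * m) :
    LinearMap.trace F V T = a ∧ LinearMap.det T = d := by
  classical
  haveI : Module.Finite F V := Module.finite_of_finrank_pos (by omega)
  by_cases h : ∃ v, v ≠ 0 ∧ ∀ m : F, T v ≠ m • v
  · obtain ⟨v, hv, hm⟩ := h
    have hli : LinearIndependent F ![v, T v] := by
      rw [LinearIndependent.pair_iff' hv]
      exact fun m e => hm m e.symm
    let b := basisOfLinearIndependentOfCardEqFinrank hli (by simp [hV])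
    have hb : ⇑b = ![v, T v] := coe_basisOfLinearIndependentOfCardEqFinrank _ _
    have h0 : T (b 0) = b 1 := by simp [hb]
    have h1 : T (b 1) = (-d) • b 0 + a • b 1 := by
      simp only [hb, Matrix.cons_val_one, Matrix.cons_val_zero]
      rw [← sub_eq_zero, ← hT v]; simp only [neg_smul]; abel
    have hM : LinearMap.toMatrix b b T = !![0, -d; 1, a] := by
      ext i j
      rw [LinearMap.toMatrix_apply]
      fin_cases j
      · simp only [Fin.zero_eta, h0]
        fin_cases i <;> simp [Module.Basis.repr_self]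
      · simp only [Fin.mk_one, h1]
        fin_cases i <;> simp [Module.Basis.repr_self]
    refine ⟨?_, ?_⟩
    · rw [LinearMap.trace_eq_matrix_trace F b, hM, Matrix.trace_fin_two]; simp
    · rw [← LinearMap.det_toMatrix b, hM, Matrix.det_fin_two]; simp
  · push Not at h
    let b := Module.finBasisOfFinrankEq F V hV
    obtain ⟨m₀, hm₀⟩ := h (b 0) (b.ne_zero 0)
    obtain ⟨m₁, hm₁⟩ := h (b 1) (b.ne_zero 1)
    obtain ⟨m₂, hm₂⟩ := h (b 0 + b 1) (fun e => by
      have := congrArg (fun v => b.repr v 0) e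
      simp at this)
    rw [map_add, hm₀, hm₁, smul_add] at hm₂
    have e0 := congrArg (fun v => b.repr v 0) hm₂
    have e1 := congrArg (fun v => b.repr v 1) hm₂
    simp at e0 e1
    have hT' : T = m₂ • LinearMap.id := by
      refine b.ext fun i => ?_
      fin_cases i <;> simp [hm₀, hm₁, e0, e1]
    have ha := hscalar m₂ fun v => by rw [hT']; rfl
    refine ⟨?_, ?_⟩
    · rw [hT', map_smul, LinearMap.trace_id, hV, ha, smul_eq_mul]; push_cast; ring
    · have := congrArg (fun v => b.repr v 0) (hT (b 0))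
      rw [hT'] at this
      simp at this
      rw [hT', LinearMap.det_smul, LinearMap.det_id, hV, mul_one]
      linear_combination (-1 : F) * this - m₂ * ha

section Main

/-- `E[p]` over `ℚ̄` of the generic fibre of an integral model. -/
abbrev Etors (W : WeierstrassCurve ℤ) (p : ℕ) : Type :=
  Submodule.torsionBy ℤ ((W.map (Int.castRingHom ℚ))⁄Qb).toAffine.Point (p : ℕ)

variable (W : WeierstrassCurve ℤ) {ℓ : ℕ}

/-- **Hasse bound.** -/
theorem apOfModel_sq_le (hℓ : ℓ.Prime) (hgood : W.IsGoodPrimeFor ℓ) :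
    W.apOfModel ℓ ^ 2 ≤ 4 * ℓ := by
  classical
  haveI : Fact ℓ.Prime := ⟨hℓ⟩
  let K := AlgebraicClosure (ZMod ℓ)
  haveI : ((W.reductionMod ℓ).map (ZMod.castHom (dvd_refl ℓ) K)).IsElliptic := by
    rw [isElliptic_iff, map_Δ, reductionMod, map_Δ, isUnit_iff_ne_zero, Ne, map_eq_zero, eq_intCast,
      ZMod.intCast_zmod_eq_zero_iff_dvd]
    exact hgood
  have h := Degree.frobTrace_sq_le (map_frobenius_eq (K := K) (W.reductionMod ℓ))
  rwa [Degree.frobTrace, natCard_frobFixed, show (ℓ : ℤ) + 1 - ((W.reductionMod ℓ).card : ℤ) =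
    W.apOfModel ℓ by simp [apOfModel, traceOfFrobenius]] at h

variable (hℓ : ℓ.Prime) (hgood : W.IsGoodPrimeFor ℓ) {A : ValuationSubring Qb}
  (hA : A.LiesOverPrime ℓ) {σ : GQ} (hσ : A.IsFrobeniusAt σ ℓ) {p : ℕ} (hp : p.Prime)
  (hp2 : p ≠ 2) (hpℓ : p ≠ ℓ)
include hℓ hgood hA hσ hp hp2 hpℓ


theorem frobenius_quadratic_torsion :
    (∀ x : Etors W p, σ • σ • x - (W.apOfModel ℓ : ZMod p) • σ • x + (ℓ : ZMod p) • x = 0) ∧
    ∀ m : ZMod p, (∀ x : Etors W p, σ • x = m • x) → (W.apOfModel ℓ : ZMod p) = 2 * m := by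
  classical
  haveI : Fact ℓ.Prime := ⟨hℓ⟩
  haveI : Fact p.Prime := ⟨hp⟩
  set WA := W.map (Int.castRingHom A) with hWA
  have hΔ : IsUnit WA.Δ := isUnit_delta_place W hℓ hgood hA
  haveI : (WA.map (algebraMap A Qb)).IsElliptic := ⟨by rw [map_Δ]; exact hΔ.map _⟩
  haveI : ((W.map (Int.castRingHom ℚ))⁄Qb).IsElliptic := by
    rw [baseChange_eq_map W A]; infer_instance
  haveI := charP_residue hℓ hA
  haveI : IsAlgClosed (ResidueField A) := isAlgClosed_residue A
  set V := W.reductionMod ℓ with hV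
  have hVeq : WA.map (residue A) = V.map (ZMod.castHom (dvd_refl ℓ) (ResidueField A)) := by
    rw [hWA, hV, reductionMod, WeierstrassCurve.map_map, WeierstrassCurve.map_map]
    congr 1
    exact RingHom.ext_int _ _
  haveI : (V.map (ZMod.castHom (dvd_refl ℓ) (ResidueField A))).IsElliptic := by
    rw [← hVeq]; exact isElliptic_residue A hΔ
  set π := Degree.frobPt ℓ (map_frobenius_eq (K := ResidueField A) V)
  have hn : IsUnit (p : A) := by
    rw [← Int.cast_natCast]
    refine isUnit_intCast hℓ hA fun h => hpℓ ?_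
    exact ((Nat.prime_dvd_prime_iff_eq hℓ hp).1 (Int.natCast_dvd_natCast.1 h)).symm
  have hodd : Odd p := hp.odd_of_ne_two hp2
  have hbc := baseChange_eq_map W A
  let ι : ((W.map (Int.castRingHom ℚ))⁄Qb).toAffine.Point →+ (WA.map (algebraMap A Qb)).toAffine.Point :=
    sigmaPoint (RingHom.id Qb) (by rw [WeierstrassCurve.map_id]; exact hbc)
  let j : (WA.map (residue A)).toAffine.Point →+
      (V.map (ZMod.castHom (dvd_refl ℓ) (ResidueField A))).toAffine.Point :=
    sigmaPoint (RingHom.id (ResidueField A)) (by rw [WeierstrassCurve.map_id]; exact hVeq)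
  have hinj : Function.Injective ι := by
    intro P Q e
    rcases P with _ | ⟨x, y, h⟩ <;> rcases Q with _ | ⟨x', y', h'⟩
    · rfl
    · exact absurd e.symm (Affine.Point.some_ne_zero _)
    · exact absurd e (Affine.Point.some_ne_zero _)
    · have e' := (Affine.Point.some.injEq ..).mp e
      simp only [RingHom.id_apply] at e'
      rw [Affine.Point.some.injEq]; exact e'
  have hj0 : ∀ R, j R = 0 → R = 0 := by
    rintro (_ | ⟨x, y, h⟩) e
    · rfl
    · exact absurd e (Affine.Point.some_ne_zero _)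
  have htors : ∀ x : Etors W p, p • ι x.1 = 0 := fun x => by
    rw [← map_nsmul, ← natCast_zsmul, (Submodule.mem_torsionBy_iff _ _).1 x.2, _root_.map_zero]
  let φ : Etors W p →+ (V.map (ZMod.castHom (dvd_refl ℓ) (ResidueField A))).toAffine.Point :=
    AddMonoidHom.mk' (fun x => j (redPt WA (ι x.1))) fun x y => by
      rw [← map_add, ← redPt_add hn hodd hΔ (htors x) (htors y), ← map_add]; rfl
  have hφinj : Function.Injective φ := (injective_iff_map_eq_zero φ).2 fun x hx =>
    Subtype.ext (hinj ((redPt_eq_zero hn hΔ (htors x) (hj0 _ hx)).trans (_root_.map_zero ι).symm))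
  have hφσ : ∀ x : Etors W p, φ (σ • x) = π (φ x) := by
    rintro ⟨P, hP⟩
    rcases P with _ | ⟨x, y, h⟩
    · rfl
    · obtain ⟨h', e⟩ := algEquiv_smul_some (K := Qb) (W.map (Int.castRingHom ℚ)).toAffine σ h
      obtain ⟨a, b, ha, hb⟩ := exists_coords hn (nonsingular_of_map _ (by rw [WeierstrassCurve.map_id]; exact hbc) h)
        (htors ⟨_, hP⟩)
      simp only [RingHom.id_apply] at ha hb
      set τ : A.decompositionSubgroup ℚ := ⟨σ, hσ.mem_decompositionSubgroup⟩
      have hra := hσ.smul_residue_eq (residue A a)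
      have hrb := hσ.smul_residue_eq (residue A b)
      rw [← ResidueField.residue_smul] at hra hrb
      have hca : algebraMap A Qb (τ • a) = σ x := by rw [← ha]; rfl
      have hcb : algebraMap A Qb (τ • b) = σ y := by rw [← hb]; rfl
      have h1 : (WA.map (algebraMap A Qb)).toAffine.Nonsingular (algebraMap A Qb a) (algebraMap A Qb b) := by
        rw [ha, hb]; exact nonsingular_of_map _ (by rw [WeierstrassCurve.map_id]) h
      have h2 : (WA.map (algebraMap A Qb)).toAffine.Nonsingular (algebraMap A Qb (τ • a))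
          (algebraMap A Qb (τ • b)) := by
        rw [hca, hcb]; exact nonsingular_of_map _ (by rw [WeierstrassCurve.map_id]) h'
      have e1 : ι (Affine.Point.some x y h) = Affine.Point.some _ _ h1 :=
        (Affine.Point.some.injEq ..).mpr ⟨ha.symm, hb.symm⟩
      have e2 : ι (σ • (Affine.Point.some x y h :
          ((W.map (Int.castRingHom ℚ))⁄Qb).toAffine.Point)) = Affine.Point.some _ _ h2 := by
        rw [e]; exact (Affine.Point.some.injEq ..).mpr ⟨hca.symm, hcb.symm⟩
      show j (redPt WA (ι (σ • (Affine.Point.some x y h :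
        ((W.map (Int.castRingHom ℚ))⁄Qb).toAffine.Point)))) =
        π (j (redPt WA (ι (Affine.Point.some x y h))))
      rw [e1, e2, redPt_some WA hΔ, redPt_some WA hΔ]
      exact (Affine.Point.some.injEq ..).mpr ⟨hra, hrb⟩
  have ha : Degree.frobTrace (map_frobenius_eq (K := ResidueField A) V) = W.apOfModel ℓ := by
    rw [Degree.frobTrace, natCard_frobFixed]; simp [apOfModel, traceOfFrobenius, hV]
  have hsmul : ∀ (m : ℤ) (x : Etors W p), (m : ZMod p) • x = m • x := fun m x =>
    Int.cast_smul_eq_zsmul (ZMod p) m x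
  refine ⟨fun x => hφinj ?_, fun m hm => ?_⟩
  · rw [_root_.map_zero, show (ℓ : ZMod p) • x = ((ℓ : ℤ) : ZMod p) • x by rw [Int.cast_natCast],
      hsmul, hsmul, map_add, map_sub, map_zsmul, map_zsmul, hφσ, hφσ, ← ha]
    exact Degree.frob_quadratic _ (φ x)
  · obtain ⟨m', rfl⟩ : ∃ m' : ℤ, (m' : ZMod p) = m := ⟨m.cast, ZMod.intCast_zmod_cast m⟩
    have key := Degree.dvd_of_scalar (map_frobenius_eq (K := ResidueField A) V) hp φ.range
      ((Nat.card_congr (AddMonoidHom.ofInjective hφinj).toEquiv).symm.trans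
        (natCard_torsionBy ((W.map (Int.castRingHom ℚ))⁄Qb) p hp.one_le))
      (by
        rintro _ ⟨x, rfl⟩
        rw [← map_zsmul, ← hsmul, Int.cast_natCast, ZMod.natCast_self, zero_smul, _root_.map_zero])
      m' (by
        rintro _ ⟨x, rfl⟩
        show π (φ x) = _
        rw [← hφσ, hm x, hsmul, map_zsmul])
    rw [ha, ← ZMod.intCast_zmod_eq_zero_iff_dvd, Int.cast_sub, Int.cast_mul, sub_eq_zero] at key
    simpa using key

/-- Frobenius at a good prime has trace `a_ℓ` and determinant `ℓ` on `E[p]`. -/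
theorem galoisTrace_frobenius :
    galoisTrace (S := ℚ) (W.map (Int.castRingHom ℚ)).toAffine p σ = (W.apOfModel ℓ : ZMod p) ∧
    LinearMap.det (galoisRepModuleEnd (K := Qb) ℚ (W.map (Int.castRingHom ℚ)).toAffine p σ) = (ℓ : ZMod p) := by
  haveI : Fact p.Prime := ⟨hp⟩
  haveI : ((W.map (Int.castRingHom ℚ))⁄Qb).IsElliptic := by
    rw [baseChange_eq_map W A, isElliptic_iff, map_Δ]
    exact (isUnit_delta_place W hℓ hgood hA).map _
  obtain ⟨hq, hs⟩ := frobenius_quadratic_torsion W hℓ hgood hA hσ hp hp2 hpℓ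
  exact trace_det_of_quadratic (finrank_torsionBy (K := Qb) (W.map (Int.castRingHom ℚ)).toAffine p)
    _ _ _ hq hs

end Main

end Fermat.Agent.EC
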