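import Fermat.Agent.EC.AddSub
import Mathlib.FieldTheory.IsAlgClosed.Basic
import Mathlib.Algebra.CharZero.Defs
import Mathlib.Tactic.ComputeDegree

/-!
# Multiplication-by-`n` on x-coordinates

For a Weierstrass curve over a domain `O ⊆ K` (`K` algebraically closed of characteristic `0`) we
construct, for every `n ≥ 1`, polynomials `a, b ∈ O[X]` with `a` monic of degree `n²`, `b` of degree
`n² - 1` and leading coefficient `n²`, with no common root in `K`, such that `x(nP) = a(x)/b(x)`.
-/

set_option autoImplicit false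
set_option linter.unusedSectionVars false

namespace Fermat.Agent.EC

open WeierstrassCurve Polynomial

section Degree

variable {R : Type*} [CommRing R]

lemma natDegree_mul_le_add {p q : R[X]} {i j : ℕ} (hp : p.natDegree ≤ i) (hq : q.natDegree ≤ j) :
    (p * q).natDegree ≤ i + j :=
  natDegree_mul_le.trans (Nat.add_le_add hp hq)

lemma natDegree_C_mul_le' (c : R) {p : R[X]} {i : ℕ} (hp : p.natDegree ≤ i) :
    (C c * p).natDegree ≤ i := (natDegree_C_mul_le c p).trans hp

end Degree

variable {O : Type*} [CommRing O] [IsDomain O] {K : Type*} [Field K] [IsAlgClosed K] [CharZero K]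
  [DecidableEq K]

/-- `(a, b)` computes `x ↦ x(nP)` on `W`. -/
structure MulPair (W : WeierstrassCurve O) (φ : O →+* K) (n : ℕ) (a b : O[X]) : Prop where
  monic : a.Monic
  natDegree_a : a.natDegree = n ^ 2
  natDegree_b : b.natDegree ≤ n ^ 2 - 1
  coeff_b : b.coeff (n ^ 2 - 1) = (n : O) ^ 2
  noCommonRoot : ∀ x : K, (a.map φ).eval x ≠ 0 ∨ (b.map φ).eval x ≠ 0
  spec_zero : ∀ (x y : K) (h : (W.map φ).toAffine.Nonsingular x y),
    n • Affine.Point.some x y h = 0 → (b.map φ).eval x = 0
  spec_some : ∀ (x y : K) (h : (W.map φ).toAffine.Nonsingular x y) (x' y' : K)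
    (h' : (W.map φ).toAffine.Nonsingular x' y'),
    n • Affine.Point.some x y h = Affine.Point.some x' y' h' →
      (b.map φ).eval x ≠ 0 ∧ (a.map φ).eval x = x' * (b.map φ).eval x

variable {W : WeierstrassCurve O} {φ : O →+* K}

lemma exists_point [(W.map φ).IsElliptic] (x : K) :
    ∃ y, (W.map φ).toAffine.Nonsingular x y := by
  obtain ⟨y, hy⟩ := IsAlgClosed.exists_root
    (C (1 : K) * Polynomial.X ^ 2 + C ((W.map φ).a₁ * x + (W.map φ).a₃) * Polynomial.X
      + C (-(x ^ 3 + (W.map φ).a₂ * x ^ 2 + (W.map φ).a₄ * x + (W.map φ).a₆)))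
    (by rw [degree_quadratic one_ne_zero]; decide)
  refine ⟨y, (Affine.equation_iff_nonsingular (W := (W.map φ).toAffine)).1 ?_⟩
  rw [Affine.equation_iff]
  simp only [IsRoot.def, eval_add, eval_mul, eval_C, eval_pow, eval_X] at hy
  linear_combination hy

lemma poly_sP_eval (s t u : O[X]) (x : K) :
    ((sP (W.map C) s t u).map φ).eval x =
      sP (W.map φ) ((s.map φ).eval x) ((t.map φ).eval x) ((u.map φ).eval x) := by
  simp [sP]

lemma poly_tP_eval (s t u : O[X]) (x : K) :
    ((tP (W.map C) s t u).map φ).eval x =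
      tP (W.map φ) ((s.map φ).eval x) ((t.map φ).eval x) ((u.map φ).eval x) := by
  simp [tP]

lemma poly_uP_eval (s t u : O[X]) (x : K) :
    ((uP s t u).map φ).eval x = uP ((s.map φ).eval x) ((t.map φ).eval x) ((u.map φ).eval x) := by
  simp [uP]

omit [IsDomain O] [CharZero K] [DecidableEq K] [IsAlgClosed K] in
lemma forms_ne_zero' [(W.map φ).IsElliptic] {s t u : K} (h : ¬(s = 0 ∧ t = 0 ∧ u = 0)) :
    ¬(sP (W.map φ) s t u = 0 ∧ tP (W.map φ) s t u = 0 ∧ uP s t u = 0) :=
  forms_ne_zero _ (W.map φ).isUnit_Δ h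

lemma mulPair_one : MulPair W φ 1 X 1 where
  monic := monic_X
  natDegree_a := by simp
  natDegree_b := by simp
  coeff_b := by simp
  noCommonRoot x := by simp
  spec_zero x y h h0 := absurd h0 (by simp [Affine.Point.some_ne_zero])
  spec_some x y h x' y' h' he := by
    simp only [one_smul, Affine.Point.some.injEq] at he
    simp [he.1]

lemma mulPair_two [(W.map φ).IsElliptic] :
    MulPair W φ 2 (sP (W.map C) (X * X) (X + X) 1) (tP (W.map C) (X * X) (X + X) 1) := by
  have hs : sP (W.map C) (X * X) (X + X) 1 =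
      X ^ 4 + (C (-W.b₄) * X ^ 2 + C (-2 * W.b₆) * X + C (-W.b₈)) := by
    simp [sP, map_ofNat]; ring
  have hdeg : (C (-W.b₄) * X ^ 2 + C (-2 * W.b₆) * X + C (-W.b₈) : O[X]).degree <
      ((4 : ℕ) : WithBot ℕ) :=
    lt_of_le_of_lt degree_quadratic_le (by exact_mod_cast (by norm_num : (2 : ℕ) < 4))
  have ht : tP (W.map C) (X * X) (X + X) 1 =
      C 4 * X ^ 3 + C W.b₂ * X ^ 2 + C (2 * W.b₄) * X + C W.b₆ := by
    simp [tP, map_ofNat]; ring
  refine ⟨?_, ?_, ?_, ?_, fun x => ?_, fun x y h h0 => ?_, fun x y h x' y' h' he => ?_⟩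
  · rw [hs]; exact monic_X_pow_add (by exact_mod_cast hdeg)
  · rw [hs]
    refine natDegree_eq_of_degree_eq_some ?_
    rw [degree_add_eq_left_of_degree_lt (by rwa [degree_X_pow]), degree_X_pow]
    norm_num
  · rw [ht]; exact natDegree_cubic_le
  · rw [ht]
    simp only [coeff_add, coeff_C_mul, coeff_X_pow, coeff_X, coeff_C]
    norm_num
  · by_contra hc
    push Not at hc
    rw [poly_sP_eval, poly_tP_eval] at hc
    simp only [Polynomial.map_mul, Polynomial.map_add, map_X, Polynomial.map_one, eval_mul,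
      eval_add, eval_X, eval_one] at hc
    exact forms_ne_zero' (W := W) (φ := φ) (s := x * x) (t := x + x) (u := 1) (by simp)
      ⟨hc.1, hc.2, by simp [uP]; ring⟩
  · rw [two_nsmul, add_self_eq_zero_iff] at h0
    rw [poly_tP_eval]
    simp only [Polynomial.map_mul, Polynomial.map_add, map_X, Polynomial.map_one, eval_mul,
      eval_add, eval_X, eval_one]
    rw [← psi2_sq h.1, h0]
    ring
  · rw [two_nsmul] at he
    rw [poly_sP_eval, poly_tP_eval]
    simp only [Polynomial.map_mul, Polynomial.map_add, map_X, Polynomial.map_one, eval_mul,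
      eval_add, eval_X, eval_one]
    have hy : 2 * y + (W.map φ).a₁ * x + (W.map φ).a₃ ≠ 0 := by
      intro hy
      rw [(add_self_eq_zero_iff h).2 hy] at he
      exact Affine.Point.some_ne_zero h' he.symm
    obtain ⟨xa, ya, ha, e, hx⟩ := double_of_ne h hy
    rw [e, Affine.Point.some.injEq] at he
    refine ⟨?_, by rw [← he.1, hx]⟩
    rw [← psi2_sq h.1]
    exact pow_ne_zero 2 hy

/-- Values at an abscissa `x` of the data entering the induction step. -/
lemma step_pointwise [(W.map φ).IsElliptic] {n : ℕ} {a b a'' b'' : O[X]}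
    (hn : MulPair W φ (n + 1) a b) (hn' : MulPair W φ n a'' b'') (x : K) :
    letI A := (a.map φ).eval x; letI B := (b.map φ).eval x
    letI A'' := (a''.map φ).eval x; letI B'' := (b''.map φ).eval x
    A'' ^ 2 * uP (A * x) (A + x * B) B - A'' * B'' * tP (W.map φ) (A * x) (A + x * B) B
      + B'' ^ 2 * sP (W.map φ) (A * x) (A + x * B) B = 0 := by
  obtain ⟨y, h⟩ := exists_point (W := W) (φ := φ) x
  set P := Affine.Point.some x y h with hP
  set A := (a.map φ).eval x
  set B := (b.map φ).eval x
  set A'' := (a''.map φ).eval x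
  set B'' := (b''.map φ).eval x
  rcases hc : (n + 1) • P with _ | ⟨xn, yn, hxn⟩
  · have hnP : n • P = -P := by
      rw [eq_neg_iff_add_eq_zero, ← succ_nsmul]; exact hc
    have hB : B = 0 := hn.spec_zero x y h hc
    rw [hP, Affine.Point.neg_some] at hnP
    obtain ⟨-, hA''⟩ := hn'.spec_some x y h _ _ _ hnP
    simp only [hB, show A'' = x * B'' from hA'', uP, tP, sP]
    ring
  obtain ⟨hB, hA⟩ := hn.spec_some x y h _ _ _ hc
  have hs : ∀ q : K → K → K → K, (∀ c s t u, q (c * s) (c * t) (c * u) = c ^ 2 * q s t u) →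
      q (A * x) (A + x * B) B = B ^ 2 * q (xn * x) (xn + x) 1 := by
    intro q hq
    rw [← hq, show A = xn * B from hA]
    congr 1 <;> ring
  rw [hs uP (fun c s t u => by simp [uP]; ring),
    hs (tP (W.map φ)) (fun c s t u => by simp [tP]; ring),
    hs (sP (W.map φ)) (fun c s t u => by simp [sP]; ring)]
  rcases eq_or_ne xn x with rfl | hx
  · rcases hn'' : n • P with _ | ⟨x'', y'', hx''⟩
    · rw [show B'' = 0 from hn'.spec_zero _ y h hn'']
      simp only [uP]
      ring
    · obtain ⟨hB'', hA''⟩ := hn'.spec_some _ y h _ _ _ hn''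
      have hne : (n + 1) • P ≠ P := by
        intro e
        rw [succ_nsmul, add_eq_right] at e
        rw [hn''] at e
        exact Affine.Point.some_ne_zero hx'' e
      have hneg : (n + 1) • P = -P := by
        rw [hP, Affine.Point.neg_some]
        rcases (Affine.Point.X_eq_iff (h₁ := hxn) (h₂ := h)).1 rfl with e | e
        · exact absurd (hc.trans e) hne
        · rw [hc, e, Affine.Point.neg_some]
      have h2 : P + P = -(n • P) := by
        rw [eq_neg_iff_add_eq_zero, add_comm _ (n • P), ← add_assoc, ← succ_nsmul, hneg]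
        simp
      have hy : 2 * y + (W.map φ).a₁ * xn + (W.map φ).a₃ ≠ 0 := by
        intro hy
        rw [hP, (add_self_eq_zero_iff h).2 hy, eq_comm, neg_eq_zero] at h2
        rw [← hP, hn''] at h2
        exact Affine.Point.some_ne_zero hx'' h2
      obtain ⟨xa, ya, ha, e, hxa⟩ := double_of_ne h hy
      rw [hn'', hP, e, Affine.Point.neg_some, Affine.Point.some.injEq] at h2
      rw [show A'' = x'' * B'' from hA'', ← h2.1]
      simp only [uP, ← hxa]
      ring
  · obtain ⟨xa, ya, xs, ys, hha, hhs, ea, es, hsum, hprod⟩ := addSub_of_ne hxn h hx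
    have he : n • P = Affine.Point.some xs ys hhs := by
      rw [← es, ← hc, ← hP, succ_nsmul, add_sub_cancel_right]
    obtain ⟨hB'', hA''⟩ := hn'.spec_some x y h _ _ _ he
    rw [show A'' = xs * B'' from hA'', ← hsum, ← hprod]
    ring

lemma mulPair_step (hφ : Function.Injective φ) [(W.map φ).IsElliptic] {n : ℕ} (hn1 : 1 ≤ n)
    {a b a'' b'' : O[X]} (hn : MulPair W φ (n + 1) a b) (hn' : MulPair W φ n a'' b'') :
    ∃ a' b' : O[X], MulPair W φ (n + 2) a' b' ∧ (a - X * b) ^ 2 = b'' * b' ∧
      sP (W.map C) (a * X) (a + X * b) b = a'' * a' ∧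
      tP (W.map C) (a * X) (a + X * b) b = a'' * b' + b'' * a' := by
  set s := a * X with hs
  set t := a + X * b with ht
  set S := sP (W.map C) s t b with hS
  set T := tP (W.map C) s t b with hT
  set U := uP s t b with hU
  -- the quadratic identity
  have hq : (a''.map φ) ^ 2 * U.map φ - a''.map φ * b''.map φ * T.map φ
      + (b''.map φ) ^ 2 * S.map φ = 0 := by
    apply Polynomial.funext
    intro x
    simp only [eval_add, eval_sub, eval_mul, eval_pow, eval_zero, hS, hT, hU, poly_sP_eval,
      poly_tP_eval, poly_uP_eval, hs, ht, Polynomial.map_mul, Polynomial.map_add, map_X, eval_X]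
    exact step_pointwise hn hn' x
  have hco : IsCoprime (a''.map φ) (b''.map φ) := by
    rw [Polynomial.isCoprime_iff_aeval_ne_zero_of_isAlgClosed _ K]
    intro x
    simpa [aeval_def, eval₂_eq_eval_map] using hn'.noCommonRoot x
  have hdS : a''.map φ ∣ S.map φ :=
    (hco.pow_right (n := 2)).dvd_of_dvd_mul_left
      ⟨b''.map φ * T.map φ - a''.map φ * U.map φ, by linear_combination hq⟩
  have hdU : b''.map φ ∣ U.map φ :=
    (hco.symm.pow_right (n := 2)).dvd_of_dvd_mul_left
      ⟨a''.map φ * T.map φ - b''.map φ * S.map φ, by linear_combination hq⟩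
  have hmon : (a''.map φ).Monic := hn'.monic.map φ
  set a' := S /ₘ a'' with ha'
  set b' := (T - b'' * a') /ₘ a'' with hb'
  have hn0 : (n : O) ≠ 0 := fun e => by
    have := congrArg φ e
    rw [map_natCast, map_zero, Nat.cast_eq_zero] at this
    omega
  have hb''0 : b''.map φ ≠ 0 := by
    rw [Polynomial.map_ne_zero_iff hφ]
    intro e
    exact pow_ne_zero 2 hn0 (by rw [← hn'.coeff_b, e, coeff_zero])
  obtain ⟨α, hα⟩ := hdS
  obtain ⟨β, hβ⟩ := hdU
  have hα' : a'.map φ = α := by
    rw [ha', map_divByMonic _ hn'.monic, hα, mul_divByMonic_cancel_left _ hmon]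
  have hTK : T.map φ = a''.map φ * β + b''.map φ * α := by
    apply mul_left_cancel₀ (mul_ne_zero hmon.ne_zero hb''0)
    linear_combination -hq + (b''.map φ) ^ 2 * hα + (a''.map φ) ^ 2 * hβ
  have hβ' : b'.map φ = β := by
    rw [hb', map_divByMonic _ hn'.monic, Polynomial.map_sub, Polynomial.map_mul, hα', hTK,
      add_sub_cancel_right, mul_divByMonic_cancel_left _ hmon]
  have hSeq : S = a'' * a' := map_injective φ hφ (by rw [Polynomial.map_mul, hα', hα])
  have hUeq : U = b'' * b' := map_injective φ hφ (by rw [Polynomial.map_mul, hβ', hβ])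
  -- degrees
  set N := (n + 1) ^ 2 with hN
  have hN1 : 1 ≤ N := Nat.one_le_pow _ _ (by omega)
  have hda : a.natDegree = N := hn.natDegree_a
  have hdb : b.natDegree ≤ N - 1 := hn.natDegree_b
  have hdt : t.natDegree ≤ N := (natDegree_add_le _ _).trans <| max_le hda.le
    ((natDegree_mul_le_add natDegree_X_le hdb).trans (by omega))
  have hdsv : s.natDegree = N + 1 := by rw [hs, natDegree_mul_X hn.monic.ne_zero, hda]
  have hrest : (-(C W.b₄ * (s * b)) + -(C W.b₆ * (t * b)) + -(C W.b₈ * (b * b))).natDegree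
      ≤ 2 * N + 1 := by
    refine (natDegree_add_le _ _).trans (max_le ((natDegree_add_le _ _).trans (max_le ?_ ?_)) ?_)
      <;> rw [natDegree_neg] <;> refine natDegree_C_mul_le' _ ?_
    · exact (natDegree_mul_le_add hdsv.le hdb).trans (by omega)
    · exact (natDegree_mul_le_add hdt hdb).trans (by omega)
    · exact (natDegree_mul_le_add hdb hdb).trans (by omega)
  have hSform : S = s ^ 2 + (-(C W.b₄ * (s * b)) + -(C W.b₆ * (t * b)) + -(C W.b₈ * (b * b))) := by
    simp [hS, sP]; ring
  have hs2 : (s ^ 2).Monic := (hn.monic.mul monic_X).pow 2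
  have hs2d : (s ^ 2).natDegree = 2 * N + 2 := by
    rw [(hn.monic.mul monic_X).natDegree_pow, ← hs, hdsv]; ring
  have hSdeg : S.natDegree = 2 * N + 2 := by
    rw [hSform, natDegree_add_eq_left_of_natDegree_lt (by rw [hs2d]; omega), hs2d]
  have hSmon : S.Monic := by
    rw [hSform]
    refine hs2.add_of_left (degree_lt_degree ?_)
    rw [hs2d]; omega
  have ha'mon : a'.Monic := hn'.monic.of_mul_monic_left (hSeq ▸ hSmon)
  have hUform : U = (a - X * b) * (a - X * b) := by
    simp [hU, hs, ht, uP]; ring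
  have hUle : U.natDegree ≤ 2 * N := by
    rw [hUform]
    have : (a - X * b).natDegree ≤ N := (natDegree_sub_le _ _).trans <| max_le hda.le
      ((natDegree_mul_le_add natDegree_X_le hdb).trans (by omega))
    exact (natDegree_mul_le_add this this).trans (by omega)
  have hUc : U.coeff (2 * N) = ((1 : O) - ((n + 1 : ℕ) : O) ^ 2) ^ 2 := by
    have h1 : (a - X * b).natDegree ≤ N := (natDegree_sub_le _ _).trans <| max_le hda.le
      ((natDegree_mul_le_add natDegree_X_le hdb).trans (by omega))
    rw [hUform, two_mul, coeff_mul_add_eq_of_natDegree_le h1 h1, coeff_sub, ← hda, hn.monic.coeff_natDegree,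
      hda, show N = (N - 1) + 1 by omega, coeff_X_mul, hn.coeff_b]
    ring
  have hUne : U.coeff (2 * N) ≠ 0 := by
    rw [hUc]
    refine pow_ne_zero 2 fun e => ?_
    have := congrArg φ e
    rw [map_sub, map_pow, map_natCast, map_one, map_zero, sub_eq_zero] at this
    have h2 : (1 : ℕ) = (n + 1) ^ 2 := by exact_mod_cast this
    nlinarith
  have hUdeg : U.natDegree = 2 * N := natDegree_eq_of_le_of_coeff_ne_zero hUle hUne
  have hU0 : U ≠ 0 := fun e => hUne (by simp [e])
  have hb''n : b''.natDegree = n ^ 2 - 1 := natDegree_eq_of_le_of_coeff_ne_zero hn'.natDegree_b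
    (by rw [hn'.coeff_b]; exact pow_ne_zero 2 hn0)
  rw [hUeq] at hU0
  have hb'deg : b'.natDegree = (n + 2) ^ 2 - 1 := by
    have := natDegree_mul (left_ne_zero_of_mul hU0) (right_ne_zero_of_mul hU0)
    rw [← hUeq, hUdeg, hb''n] at this
    have h1 : 1 ≤ n ^ 2 := Nat.one_le_pow _ _ hn1
    have h2 : 1 ≤ (n + 2) ^ 2 := Nat.one_le_pow _ _ (by omega)
    zify [h1, h2] at this ⊢
    rw [hN] at this
    push_cast at this ⊢
    linarith
  have ha'deg : a'.natDegree = (n + 2) ^ 2 := by
    have := hn'.monic.natDegree_mul ha'mon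
    rw [← hSeq, hSdeg, hn'.natDegree_a] at this
    rw [hN] at this
    linarith
  have hTeq : T = a'' * b' + b'' * a' := map_injective φ hφ (by
    rw [Polynomial.map_add, Polynomial.map_mul, Polynomial.map_mul, hα', hβ']
    exact hTK)
  refine ⟨a', b', ⟨ha'mon, ha'deg, hb'deg.le, ?_, fun x => ?_, ?_, ?_⟩,
    (by rw [← hUeq, hUform, pow_two]), hSeq, hTeq⟩
  · -- leading coefficient
    have hl : U.leadingCoeff = b''.leadingCoeff * b'.leadingCoeff := by rw [hUeq, leadingCoeff_mul]
    rw [leadingCoeff, leadingCoeff, leadingCoeff, hUdeg, hUc, hb''n, hn'.coeff_b, hb'deg] at hl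
    refine mul_left_cancel₀ (pow_ne_zero 2 hn0) (hl.symm.trans ?_)
    push_cast
    ring
  · -- no common root
    by_contra hc
    push Not at hc
    have hAB : ¬((a.map φ).eval x * x = 0 ∧ (a.map φ).eval x + x * (b.map φ).eval x = 0 ∧
        (b.map φ).eval x = 0) := by
      rintro ⟨-, h2, h3⟩
      rw [h3, mul_zero, add_zero] at h2
      exact (hn.noCommonRoot x).elim (· h2) (· h3)
    refine forms_ne_zero' (W := W) (φ := φ) hAB ⟨?_, ?_, ?_⟩
    · have := congrArg (eval x) hα
      rw [hS, poly_sP_eval, eval_mul, ← hα', hc.1, mul_zero] at this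
      simpa [hs, ht] using this
    · have := congrArg (eval x) hTK
      rw [hT, poly_tP_eval, eval_add, eval_mul, eval_mul, ← hα', ← hβ', hc.1, hc.2, mul_zero,
        mul_zero, add_zero] at this
      simpa [hs, ht] using this
    · have := congrArg (eval x) hβ
      rw [hU, poly_uP_eval, eval_mul, ← hβ', hc.2, mul_zero] at this
      simpa [hs, ht] using this
  all_goals intro x y h
  all_goals set P := Affine.Point.some x y h with hP
  all_goals have heS := congrArg (eval x) hα
  all_goals have heT := congrArg (eval x) hTK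
  all_goals have heU := congrArg (eval x) hβ
  all_goals rw [hS, poly_sP_eval, eval_mul, ← hα'] at heS
  all_goals rw [hT, poly_tP_eval, eval_add, eval_mul, eval_mul, ← hα', ← hβ'] at heT
  all_goals rw [hU, poly_uP_eval, eval_mul, ← hβ'] at heU
  all_goals simp only [hs, ht, Polynomial.map_mul, Polynomial.map_add, map_X, eval_mul, eval_add,
    eval_X] at heS heT heU
  all_goals set A := (a.map φ).eval x with hAdef
  all_goals set B := (b.map φ).eval x with hBdef
  all_goals set A' := (a'.map φ).eval x
  all_goals set B' := (b'.map φ).eval x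
  all_goals set A'' := (a''.map φ).eval x
  all_goals set B'' := (b''.map φ).eval x
  · -- `(n+2) P = 0`
    intro hz
    have hm : (n + 1) • P = -P := by
      rw [eq_neg_iff_add_eq_zero, ← succ_nsmul]; exact hz
    have hm' := hm
    rw [hP, Affine.Point.neg_some] at hm'
    obtain ⟨hB, hA⟩ := hn.spec_some x y h _ _ _ hm'
    rw [← hBdef, ← hAdef] at hA
    have hu : uP (A * x) (A + x * B) B = 0 := by simp only [hA, uP]; ring
    rw [hu, eq_comm, mul_eq_zero] at heU
    rcases heU with hB'' | hB'
    · have hn0P : n • P = 0 := by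
        by_contra hne
        rcases hc : n • P with _ | ⟨x'', y'', h''⟩
        · exact hne hc
        · exact (hn'.spec_some x y h _ _ _ hc).1 hB''
      rw [succ_nsmul, hn0P, zero_add] at hm
      have h2 : P + P = 0 := by
        nth_rewrite 2 [hm]
        rw [add_neg_cancel]
      have hy := (add_self_eq_zero_iff h).1 h2
      have ht0 : tP (W.map φ) (A * x) (A + x * B) B = B ^ 2 * (2 * y + (W.map φ).a₁ * x
          + (W.map φ).a₃) ^ 2 := by
        rw [psi2_sq h.1]
        simp only [hA, tP]
        ring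
      rw [hy, zero_pow two_ne_zero, mul_zero] at ht0
      rw [ht0, hB'', zero_mul, add_zero, eq_comm, mul_eq_zero] at heT
      exact heT.resolve_left fun h0 => (hn'.noCommonRoot x).elim (· h0) (· hB'')
    · exact hB'
  · -- `(n+2) P` affine
    intro x' y' h' he
    rcases hc : (n + 1) • P with _ | ⟨xn, yn, hxn⟩
    · have hB : B = 0 := hn.spec_zero x y h hc
      have hA : A ≠ 0 := (hn.noCommonRoot x).resolve_right (not_not.2 hB)
      have hnP : n • P = -P := by
        rw [eq_neg_iff_add_eq_zero, ← succ_nsmul]; exact hc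
      rw [hP, Affine.Point.neg_some] at hnP
      obtain ⟨hB'', hA''⟩ := hn'.spec_some x y h _ _ _ hnP
      rw [show n + 2 = n + 1 + 1 from rfl, succ_nsmul, hc] at he
      rw [show (Affine.Point.zero : (W.map φ).toAffine.Point) = 0 from rfl, zero_add, hP,
        Affine.Point.some.injEq] at he
      rw [← he.1]
      have hB' : B' ≠ 0 := by
        intro e
        rw [hB, e, mul_zero] at heU
        simp only [uP, mul_zero, add_zero, sub_zero] at heU
        exact hA (pow_eq_zero_iff two_ne_zero |>.1 heU)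
      refine ⟨hB', mul_left_cancel₀ hB'' ?_⟩
      rw [show A'' = x * B'' from hA''] at heT
      simp only [hB, uP, tP] at heU heT
      linear_combination -heT + 2 * x * heU
    obtain ⟨hB, hA⟩ := hn.spec_some x y h _ _ _ hc
    rw [← hBdef, ← hAdef] at hA
    have hh : ∀ q : K → K → K → K, (∀ c s t u, q (c * s) (c * t) (c * u) = c ^ 2 * q s t u) →
        q (A * x) (A + x * B) B = B ^ 2 * q (xn * x) (xn + x) 1 := by
      intro q hq
      rw [← hq, hA]
      congr 1 <;> ring
    rw [hh uP (fun c s t u => by simp [uP]; ring)] at heU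
    rw [hh (tP (W.map φ)) (fun c s t u => by simp [tP]; ring)] at heT
    rw [hh (sP (W.map φ)) (fun c s t u => by simp [sP]; ring)] at heS
    rcases eq_or_ne xn x with rfl | hx
    · have hP' : (n + 1) • P = P := by
        rcases (Affine.Point.X_eq_iff (h₁ := hxn) (h₂ := h)).1 rfl with e | e
        · exact hc.trans e
        · exfalso
          rw [show n + 2 = n + 1 + 1 from rfl, succ_nsmul, hc, e, ← hP, neg_add_cancel] at he
          exact Affine.Point.some_ne_zero h' he.symm
      have hB'' : B'' = 0 := hn'.spec_zero _ y h (by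
        rw [succ_nsmul, add_eq_right] at hP'; exact hP')
      have hA'' : A'' ≠ 0 := (hn'.noCommonRoot _).resolve_right (not_not.2 hB'')
      rw [show n + 2 = n + 1 + 1 from rfl, succ_nsmul, hP', hP] at he
      have hy : 2 * y + (W.map φ).a₁ * xn + (W.map φ).a₃ ≠ 0 := by
        intro hy
        rw [(add_self_eq_zero_iff h).2 hy] at he
        exact Affine.Point.some_ne_zero h' he.symm
      obtain ⟨xa, ya, hha, e, hxa⟩ := double_of_ne h hy
      rw [e, Affine.Point.some.injEq] at he
      rw [← he.1]
      rw [hB'', zero_mul, add_zero] at heT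
      rw [← hxa] at heS
      have hB' : B' ≠ 0 := by
        intro e0
        rw [e0, mul_zero, mul_eq_zero, ← psi2_sq h.1] at heT
        exact heT.elim (pow_ne_zero 2 hB) (pow_ne_zero 2 hy)
      refine ⟨hB', mul_left_cancel₀ hA'' ?_⟩
      linear_combination -heS + xa * heT
    · obtain ⟨xa, ya, xs, ys, hha, hhs, ea, es, hsum, hprod⟩ := addSub_of_ne hxn h hx
      have hns : n • P = Affine.Point.some xs ys hhs := by
        rw [← es, ← hc, ← hP, succ_nsmul, add_sub_cancel_right]
      obtain ⟨hB'', hA''⟩ := hn'.spec_some x y h _ _ _ hns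
      rw [show n + 2 = n + 1 + 1 from rfl, succ_nsmul, hc, hP, ea, Affine.Point.some.injEq] at he
      rw [← he.1]
      have hu : uP (xn * x) (xn + x) 1 ≠ 0 := by
        rw [show uP (xn * x) (xn + x) 1 = (xn - x) ^ 2 by simp [uP]; ring]
        exact pow_ne_zero 2 (sub_ne_zero.2 hx)
      have hB' : B' ≠ 0 := by
        intro e
        rw [e, mul_zero, mul_eq_zero] at heU
        exact heU.elim (pow_ne_zero 2 hB) hu
      refine ⟨hB', mul_left_cancel₀ hB'' ?_⟩
      rw [show A'' = xs * B'' from hA'', ← hsum] at heT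
      linear_combination -heT + (xa + xs) * heU

/-- Existence of the multiplication pairs. -/
theorem exists_mulPair (hφ : Function.Injective φ) [(W.map φ).IsElliptic] (n : ℕ) (hn : 1 ≤ n) :
    ∃ a b : O[X], MulPair W φ n a b := by
  induction n using Nat.strong_induction_on with
  | _ n ih =>
    rcases n with _ | _ | _ | n
    · omega
    · exact ⟨_, _, mulPair_one⟩
    · exact ⟨_, _, mulPair_two⟩
    · obtain ⟨a'', b'', h''⟩ := ih (n + 1) (by omega) (by omega)
      obtain ⟨a, b, h⟩ := ih (n + 2) (by omega) (by omega)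
      obtain ⟨a', b', h', -⟩ := mulPair_step hφ (by omega) h h''
      exact ⟨a', b', h'⟩

lemma MulPair.eval_b_eq_zero_iff {n : ℕ} {a b : O[X]} (h : MulPair W φ n a b) {x y : K}
    (hP : (W.map φ).toAffine.Nonsingular x y) :
    (b.map φ).eval x = 0 ↔ n • Affine.Point.some x y hP = 0 := by
  refine ⟨fun hb => ?_, h.spec_zero x y hP⟩
  rcases hc : n • Affine.Point.some x y hP with _ | ⟨x', y', h'⟩
  · rfl
  · exact absurd hb (h.spec_some x y hP _ _ _ hc).1

end Fermat.Agent.EC
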