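import Fermat.Agent.EC.MulPair
import Fermat.Prelude.Def_FLTPrelim_GaloisRep
import Mathlib

/-!
# Torsion of elliptic curves over algebraically closed fields of characteristic zero

* `card_nsmul_eq_zero`, `natCard_torsionBy`: `#E[n] = n²`.
* `finrank_torsionBy`: `E[p]` is two-dimensional over `ZMod p`.
* `torsion_x_mem`, `torsion_y_mem`: integrality of torsion of order invertible in a valuation ring.
-/

set_option autoImplicit false

namespace Fermat.Agent.EC

open WeierstrassCurve Polynomial
open scoped WeierstrassCurve.Affine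

section Card

variable {K : Type*} [Field K] [IsAlgClosed K] [CharZero K] [DecidableEq K]
variable (W : WeierstrassCurve K) [W.IsElliptic]

theorem card_nsmul_eq_zero (n : ℕ) (hn : 1 ≤ n) :
    Nat.card {P : W.toAffine.Point // n • P = 0} = n ^ 2 := by
  have hW : W.map (RingHom.id K) = W := by ext <;> rfl
  haveI : (W.map (RingHom.id K)).IsElliptic := by rw [hW]; infer_instance
  rw [← hW]
  obtain ⟨a, b, h⟩ := exists_mulPair (W := W) (φ := RingHom.id K) Function.injective_id n hn
  set V := W.map (RingHom.id K) with hV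
  set N := n ^ 2 with hN
  have hN1 : 1 ≤ N := Nat.one_le_pow _ _ (by omega)
  have hn0 : (n : K) ≠ 0 := Nat.cast_ne_zero.2 (by omega)
  have hbdeg : b.natDegree = N - 1 := natDegree_eq_of_le_of_coeff_ne_zero h.natDegree_b
    (by rw [h.coeff_b]; exact pow_ne_zero 2 hn0)
  -- `a' b - a b'` is nonzero
  have hwr : derivative a * b - a * derivative b ≠ 0 := by
    intro e
    rw [sub_eq_zero] at e
    rcases Nat.eq_or_lt_of_le hn with h1 | h1
    · have hb : b = C (b.coeff 0) := eq_C_of_natDegree_eq_zero (by rw [hbdeg, hN, ← h1]; rfl)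
      have hb0 : b.coeff 0 ≠ 0 := by
        have := h.coeff_b
        rw [← h1] at this
        simp only [one_pow, Nat.sub_self, Nat.cast_one] at this
        rw [this]; exact one_ne_zero
      have hdb : derivative b = 0 := by rw [hb, derivative_C]
      rw [hdb, mul_zero, mul_eq_zero, or_iff_left (fun e0 => hb0 (by rw [e0, coeff_zero])),
        derivative_eq_zero, h.natDegree_a, ← h1] at e
      exact absurd e (by norm_num)
    · have hN4 : 4 ≤ N := by nlinarith
      have hda : (derivative a).leadingCoeff = (N : K) := by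
        rw [leadingCoeff_derivative, h.monic.leadingCoeff, h.natDegree_a]; simp [hN]
      have hdb : (derivative b).leadingCoeff = b.leadingCoeff * ((N - 1 : ℕ) : K) := by
        rw [leadingCoeff_derivative, hbdeg]
      have := congrArg leadingCoeff e
      rw [leadingCoeff_mul, leadingCoeff_mul, hda, hdb, h.monic.leadingCoeff, one_mul,
        mul_comm (N : K)] at this
      have hb0 : b.leadingCoeff ≠ 0 := by
        rw [leadingCoeff_ne_zero]
        intro e0
        rw [e0, natDegree_zero] at hbdeg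
        omega
      have h2 : N = N - 1 := by exact_mod_cast mul_left_cancel₀ hb0 this
      omega
  set t2 : K[X] := C 4 * X ^ 3 + C V.b₂ * X ^ 2 + C (2 * V.b₄) * X + C V.b₆ with ht2
  have ht2e : ∀ r : K, t2.eval r = tP V (r * r) (r + r) 1 := by
    intro r; simp [ht2, tP]; ring
  have ht20 : t2 ≠ 0 := by
    intro e
    have := congrArg (fun q => coeff q 3) e
    simp [ht2, coeff_X, coeff_C] at this
  -- the bad values
  classical
  set bad : Finset K := (derivative a * b - a * derivative b).roots.toFinset.image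
      (fun r => a.eval r / b.eval r) ∪ t2.roots.toFinset ∪
      t2.roots.toFinset.image (fun r => a.eval r / b.eval r) with hbad
  obtain ⟨c, hc⟩ := bad.exists_notMem
  simp only [hbad, Finset.mem_union, Finset.mem_image, Multiset.mem_toFinset, not_or,
    not_exists, not_and] at hc
  obtain ⟨⟨hc1, hc2⟩, hc3⟩ := hc
  set q := a - C c * b with hq
  have hnc : ∀ r : K, a.eval r ≠ 0 ∨ b.eval r ≠ 0 := fun r => by
    simpa using h.noCommonRoot r
  have hqr : ∀ r : K, q.eval r = 0 → b.eval r ≠ 0 ∧ a.eval r / b.eval r = c := by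
    intro r hr
    rw [hq, eval_sub, eval_mul, eval_C, sub_eq_zero] at hr
    have hb : b.eval r ≠ 0 := fun e => by
      rw [e, mul_zero] at hr
      exact (hnc r).elim (· hr) (· e)
    exact ⟨hb, by rw [hr, mul_div_cancel_right₀ _ hb]⟩
  have hqd : q.natDegree = N := by
    rw [hq, natDegree_sub_eq_left_of_natDegree_lt, h.natDegree_a]
    rw [h.natDegree_a]
    exact lt_of_le_of_lt ((natDegree_C_mul_le _ _).trans h.natDegree_b) (by omega)
  have hq0 : q ≠ 0 := fun e => by rw [e, natDegree_zero] at hqd; omega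
  have hsep : q.Separable := by
    rw [separable_def, isCoprime_iff_aeval_ne_zero_of_isAlgClosed _ K]
    intro r
    simp only [coe_aeval_eq_eval]
    by_contra hh
    push Not at hh
    obtain ⟨h1, h2⟩ := hh
    obtain ⟨hb, hcr⟩ := hqr r h1
    refine hc1 r ((mem_roots hwr).2 ?_) hcr
    rw [hq, eval_sub, eval_mul, eval_C, sub_eq_zero] at h1
    rw [hq, derivative_sub, derivative_C_mul, eval_sub, eval_mul, eval_C, sub_eq_zero] at h2
    simp only [IsRoot.def, eval_sub, eval_mul, h1, h2]
    ring
  have hcard : Nat.card {r : K // q.eval r = 0} = N := by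
    rw [← hqd, (IsAlgClosed.splits q).natDegree_eq_card_roots]
    rw [← Multiset.toFinset_card_of_nodup (nodup_roots hsep), ← Nat.card_eq_finsetCard]
    exact Nat.card_congr (Equiv.subtypeEquivRight fun r => by simp [hq0])
  -- the fibre over `c`
  obtain ⟨y₀, hQ⟩ := exists_point (W := W) (φ := RingHom.id K) c
  set Q := Affine.Point.some c y₀ hQ with hQdef
  have hQ2 : Q + Q ≠ 0 := by
    rw [hQdef, ne_eq, add_self_eq_zero_iff]
    intro e
    refine hc2 ((mem_roots ht20).2 ?_)
    rw [IsRoot.def, ht2e, ← psi2_sq hQ.1, e]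
    ring
  have hsel : ∀ r : {r : K // q.eval r = 0}, ∃ y, V.toAffine.Nonsingular r.1 y :=
    fun r => exists_point r.1
  choose ysel hsel using hsel
  let P₁ : {r : K // q.eval r = 0} → V.toAffine.Point := fun r => .some r.1 (ysel r) (hsel r)
  have hP₁ : ∀ r, (n • P₁ r).xRep = Q.xRep := by
    intro r
    obtain ⟨hb, hr⟩ := hqr r.1 r.2
    rcases e : n • P₁ r with _ | ⟨x', y', h'⟩
    · exact absurd (by simpa using h.spec_zero _ _ (hsel r) e) hb
    · obtain ⟨-, ha'⟩ := h.spec_some _ _ (hsel r) _ _ _ e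
      rw [Polynomial.map_id, Polynomial.map_id] at ha'
      rw [Affine.Point.xRep_some, hQdef, Affine.Point.xRep_some, ← hr, ha',
        mul_div_cancel_right₀ _ hb]
  have hP₁2 : ∀ r, P₁ r + P₁ r ≠ 0 := by
    intro r e
    rw [add_self_eq_zero_iff] at e
    obtain ⟨hb, hr⟩ := hqr r.1 r.2
    refine hc3 r.1 ((mem_roots ht20).2 ?_) hr
    rw [IsRoot.def, ht2e, ← psi2_sq (hsel r).1, e]
    ring
  let F := {P : V.toAffine.Point // n • P = Q ∨ n • P = -Q}
  let g : {r : K // q.eval r = 0} ⊕ {r : K // q.eval r = 0} → F := Sum.elim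
    (fun r => ⟨P₁ r, Affine.Point.eq_or_eq_neg_of_xRep_eq_xRep (hP₁ r)⟩)
    (fun r => ⟨-P₁ r, by
      rcases Affine.Point.eq_or_eq_neg_of_xRep_eq_xRep (hP₁ r) with e | e
      · exact Or.inr (by rw [neg_nsmul, e])
      · exact Or.inl (by rw [neg_nsmul, e, neg_neg])⟩)
  have hxg : ∀ r r', (P₁ r).xRep = (P₁ r').xRep → r = r' := by
    intro r r' e
    simpa [P₁, Subtype.ext_iff] using e
  have hg : Function.Bijective g := by
    refine ⟨?_, ?_⟩
    · rintro (r | r) (r' | r') e
      all_goals have e' : (g _).1 = (g _).1 := congrArg Subtype.val e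
      all_goals simp only [g, Sum.elim_inl, Sum.elim_inr] at e'
      · rw [hxg r r' (by rw [e'])]
      · have hr := hxg r r' (by rw [e', Affine.Point.xRep_neg])
        rw [← hr, eq_neg_iff_add_eq_zero] at e'
        exact absurd e' (hP₁2 r)
      · have hr := hxg r r' (by rw [← e', Affine.Point.xRep_neg])
        rw [← hr, neg_eq_iff_add_eq_zero] at e'
        exact absurd e' (hP₁2 r)
      · rw [hxg r r' (by rw [neg_inj.1 e'])]
    · rintro ⟨P, hP⟩
      rcases P with _ | ⟨x, y, hxy⟩
      · exfalso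
        rw [show (Affine.Point.zero : V.toAffine.Point) = 0 from rfl, nsmul_zero] at hP
        rcases hP with e | e
        · exact Affine.Point.some_ne_zero hQ e.symm
        · exact Affine.Point.some_ne_zero hQ (neg_eq_zero.1 e.symm)
      have hx : (n • Affine.Point.some x y hxy).xRep = Q.xRep := by
        rcases hP with e | e
        · rw [e]
        · rw [e]; exact Affine.Point.xRep_neg _
      rcases e : n • Affine.Point.some x y hxy with _ | ⟨x', y', h'⟩
      · rw [e, show (Affine.Point.zero : V.toAffine.Point) = 0 from rfl, hQdef] at hx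
        rw [Affine.Point.xRep_zero, Affine.Point.xRep_some] at hx
        exact absurd (congrFun hx 1) (by simp)
      obtain ⟨hb, ha'⟩ := h.spec_some _ _ hxy _ _ _ e
      rw [e, hQdef] at hx
      simp only [Affine.Point.xRep_some, Matrix.vecCons_inj, and_true] at hx
      have hr : q.eval x = 0 := by
        rw [Polynomial.map_id, Polynomial.map_id] at ha'
        rw [hq, eval_sub, eval_mul, eval_C, ha', hx, sub_self]
      rcases (Affine.Point.X_eq_iff (h₁ := hxy) (h₂ := hsel ⟨x, hr⟩)).1 rfl with e' | e'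
      · exact ⟨Sum.inl ⟨x, hr⟩, Subtype.ext e'.symm⟩
      · exact ⟨Sum.inr ⟨x, hr⟩, Subtype.ext e'.symm⟩
  -- some preimage of `Q`
  obtain ⟨P₀, hP₀⟩ : ∃ P, n • P = Q := by
    have : Nonempty {r : K // q.eval r = 0} := by
      rw [← not_isEmpty_iff]
      intro hh
      rw [Nat.card_eq_zero.2 (Or.inl hh)] at hcard
      omega
    obtain ⟨r⟩ := this
    rcases Affine.Point.eq_or_eq_neg_of_xRep_eq_xRep (hP₁ r) with e | e
    · exact ⟨_, e⟩
    · exact ⟨-P₁ r, by rw [neg_nsmul, e, neg_neg]⟩
  let k : {P : V.toAffine.Point // n • P = 0} ⊕ {P : V.toAffine.Point // n • P = 0} → F := Sum.elim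
    (fun r => ⟨P₀ + r.1, Or.inl (by rw [nsmul_add, hP₀, r.2, add_zero])⟩)
    (fun r => ⟨-(P₀ + r.1), Or.inr (by rw [neg_nsmul, nsmul_add, hP₀, r.2, add_zero])⟩)
  have hk : Function.Bijective k := by
    refine ⟨?_, ?_⟩
    · rintro (r | r) (r' | r') e
      all_goals have e' : (k _).1 = (k _).1 := congrArg Subtype.val e
      all_goals simp only [k, Sum.elim_inl, Sum.elim_inr] at e'
      · rw [Subtype.ext (add_left_cancel e')]
      · have e'' := congrArg (n • ·) e'
        simp only [neg_nsmul, nsmul_add, hP₀, r.2, r'.2, add_zero, eq_neg_iff_add_eq_zero] at e''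
        exact absurd e'' hQ2
      · have e'' := congrArg (n • ·) e'
        simp only [neg_nsmul, nsmul_add, hP₀, r.2, r'.2, add_zero, neg_eq_iff_add_eq_zero] at e''
        exact absurd e'' hQ2
      · rw [Subtype.ext (add_left_cancel (neg_inj.1 e'))]
    · rintro ⟨P, e | e⟩
      · exact ⟨Sum.inl ⟨P - P₀, by rw [nsmul_sub, e, hP₀, sub_self]⟩,
          Subtype.ext (add_sub_cancel P₀ P)⟩
      · exact ⟨Sum.inr ⟨-P - P₀, by rw [nsmul_sub, neg_nsmul, e, hP₀, neg_neg, sub_self]⟩,
          Subtype.ext (by show -(P₀ + (-P - P₀)) = P; rw [add_sub_cancel, neg_neg])⟩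
  have hcards := (Nat.card_congr (Equiv.ofBijective k hk)).trans
    (Nat.card_congr (Equiv.ofBijective g hg)).symm
  haveI : Finite {r : K // q.eval r = 0} := Nat.finite_of_card_ne_zero (by omega)
  haveI : Finite F := Finite.of_equiv _ (Equiv.ofBijective g hg)
  haveI : Finite {P : V.toAffine.Point // n • P = 0} := by
    haveI := Finite.of_equiv _ (Equiv.ofBijective k hk).symm
    exact Finite.sum_left {P : V.toAffine.Point // n • P = 0}
  rw [Nat.card_sum, Nat.card_sum, hcard] at hcards
  omega

lemma mem_torsionBy_iff_nsmul {n : ℕ} {P : W.toAffine.Point} :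
    P ∈ Submodule.torsionBy ℤ W.toAffine.Point n ↔ n • P = 0 := by
  rw [Submodule.mem_torsionBy_iff, natCast_zsmul]

theorem natCard_torsionBy (n : ℕ) (hn : 1 ≤ n) :
    Nat.card (Submodule.torsionBy ℤ W.toAffine.Point n) = n ^ 2 := by
  rw [← card_nsmul_eq_zero W n hn]
  exact Nat.card_congr (Equiv.subtypeEquivRight fun P => mem_torsionBy_iff_nsmul W)

theorem finite_torsionBy (n : ℕ) (hn : 1 ≤ n) :
    Finite (Submodule.torsionBy ℤ W.toAffine.Point n) :=
  Nat.finite_of_card_ne_zero (by
    rw [natCard_torsionBy W n hn]; exact pow_ne_zero 2 (by omega))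

theorem finrank_eq_two_of_natCard {p : ℕ} [Fact p.Prime] {M : Type*} [AddCommGroup M]
    [Module (ZMod p) M] (h : Nat.card M = p ^ 2) : Module.finrank (ZMod p) M = 2 := by
  haveI : Finite M := Nat.finite_of_card_ne_zero (by
    rw [h]; exact pow_ne_zero 2 (Fact.out : p.Prime).ne_zero)
  haveI : Module.Finite (ZMod p) M := Module.Finite.of_finite
  have hc : Nat.card M = p ^ Module.finrank (ZMod p) M := by
    simp [Module.natCard_eq_pow_finrank (K := ZMod p) (V := M)]
  exact Nat.pow_right_injective (Fact.out : p.Prime).two_le (hc.symm.trans h)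

theorem finrank_torsionBy {R : Type*} [CommRing R] [Algebra R K]
    (W' : WeierstrassCurve.Affine R) [(W'⁄K).IsElliptic] (p : ℕ) [Fact p.Prime] :
    Module.finrank (ZMod p) (Submodule.torsionBy ℤ (W'⁄K).Point p) = 2 :=
  finrank_eq_two_of_natCard (natCard_torsionBy (W'⁄K : WeierstrassCurve K) p (Fact.out : p.Prime).one_le)

end Card

section Integral

variable {K : Type*} [Field K] [IsAlgClosed K] [CharZero K] [DecidableEq K]
variable (A : ValuationSubring K)

lemma mem_of_aeval_eq_zero {x : K} {b : A[X]} (hu : IsUnit b.leadingCoeff)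
    (h : (b.map (algebraMap A K)).eval x = 0) : x ∈ A := by
  obtain ⟨u, hu⟩ := hu
  have hm : (C (↑u⁻¹ : A) * b).Monic := by
    simp only [Monic.def, leadingCoeff_mul, leadingCoeff_C, ← hu, Units.inv_mul]
  have hint : IsIntegral A x := ⟨_, hm, by
    rw [eval₂_mul, eval₂_eq_eval_map (p := b), h, mul_zero]⟩
  obtain ⟨z, hz⟩ := IsIntegrallyClosed.isIntegral_iff.1 hint
  rw [← hz]
  exact z.2

theorem torsion_x_mem (W : WeierstrassCurve A) [(W.map (algebraMap A K)).IsElliptic]
    {n : ℕ} (hn : IsUnit (n : A)) {x y : K}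
    (h : (W.map (algebraMap A K)).toAffine.Nonsingular x y)
    (hP : n • Affine.Point.some x y h = 0) : x ∈ A := by
  have hn1 : 1 ≤ n := by
    rcases Nat.eq_zero_or_pos n with rfl | h0
    · simp at hn
    · exact h0
  obtain ⟨a, b, hab⟩ := exists_mulPair (W := W) (φ := algebraMap A K)
    (Subtype.val_injective) n hn1
  refine mem_of_aeval_eq_zero A ?_ (hab.spec_zero x y h hP)
  rw [leadingCoeff, natDegree_eq_of_le_of_coeff_ne_zero hab.natDegree_b
    (by rw [hab.coeff_b]; exact (hn.pow 2).ne_zero), hab.coeff_b]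
  exact hn.pow 2

omit [IsAlgClosed K] [CharZero K] [DecidableEq K] in
theorem y_mem_of_x_mem (W : WeierstrassCurve A) {x y : K} (hx : x ∈ A)
    (h : (W.map (algebraMap A K)).toAffine.Equation x y) : y ∈ A := by
  rw [Affine.equation_iff] at h
  set B : A := W.a₁ * ⟨x, hx⟩ + W.a₃ with hB
  set Cc : A := (⟨x, hx⟩ : A) ^ 3 + W.a₂ * ⟨x, hx⟩ ^ 2 + W.a₄ * ⟨x, hx⟩ + W.a₆ with hC
  have hint : IsIntegral A y := ⟨X ^ 2 + (C B * X - C Cc),
    monic_X_pow_add (lt_of_le_of_lt (degree_sub_le _ _) (max_lt
      (lt_of_le_of_lt (degree_C_mul_X_le _) (by exact_mod_cast one_lt_two))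
      (lt_of_le_of_lt degree_C_le (by exact_mod_cast two_pos)))), by
    simp only [eval₂_add, eval₂_sub, eval₂_mul, eval₂_X_pow, eval₂_X, eval₂_C, hB, hC,
      map_add, map_mul, map_pow, eval₂_pow]
    simp only [map_a₁, map_a₂, map_a₃, map_a₄, map_a₆] at h
    have hxA : algebraMap A K ⟨x, hx⟩ = x := rfl
    rw [hxA]
    linear_combination h⟩
  obtain ⟨z, hz⟩ := IsIntegrallyClosed.isIntegral_iff.1 hint
  rw [← hz]
  exact z.2

end Integral

end Fermat.Agent.EC
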