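import Fermat.Agent.EC.Rep
import Fermat.Agent.EC.Local.VarChange
import Fermat.Prelude.Def_EllipticCurve_FrobeniusTrace

/-!
# The trace on `E[p]` is invariant under a rational change of variables
-/

set_option autoImplicit false

noncomputable section

namespace Fermat.Agent.EC

open WeierstrassCurve WeierstrassCurve.Affine.Point
open scoped WeierstrassCurve.Affine

local notation "Qbar" => AlgebraicClosure ℚ

/-- Change of variables onto an equal curve. -/
def vcTo {K : Type*} [Field K] [DecidableEq K] {V V' : WeierstrassCurve K} [V.IsElliptic]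
    (C : VariableChange K) (h : C • V = V') : V.toAffine.Point →+ V'.toAffine.Point := h ▸ vcHom C (W := V)

theorem vcTo_some {K : Type*} [Field K] [DecidableEq K] {V V' : WeierstrassCurve K}
    [V.IsElliptic] (C : VariableChange K) (h : C • V = V') {x y : K} (hn : V.toAffine.Nonsingular x y) :
    ∃ h', vcTo C h (.some x y hn) = .some (vcX C x) (vcY C x y) h' := by
  subst h
  exact ⟨_, rfl⟩

theorem vcTo_injective {K : Type*} [Field K] [DecidableEq K] {V V' : WeierstrassCurve K}
    [V.IsElliptic] (C : VariableChange K) (h : C • V = V') : Function.Injective (vcTo C h) := by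
  subst h
  exact vcHom_injective C

variable {E E' : WeierstrassCurve ℚ} (C : VariableChange ℚ) (h : C • E = E')

theorem baseChange_smul_eq (h : C • E = E') :
    C.map (algebraMap ℚ Qbar) • (E⁄Qbar : WeierstrassCurve Qbar) = (E'⁄Qbar) := by
  rw [← h]
  exact map_variableChange E C (algebraMap ℚ Qbar)

/-- The trace on the torsion does not change. -/
theorem galoisTrace_variableChange [E.IsElliptic] (p : ℕ) [Fact p.Prime]
    (σ : Qbar ≃ₐ[ℚ] Qbar) (h : C • E = E') :
    galoisTrace (K := Qbar) ℚ E'.toAffine p σ = galoisTrace (K := Qbar) ℚ E.toAffine p σ := by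
  classical
  haveI : E'.IsElliptic := by rw [← h]; infer_instance
  haveI : (E⁄Qbar : WeierstrassCurve Qbar).IsElliptic :=
    inferInstanceAs (E.map (algebraMap ℚ Qbar)).IsElliptic
  haveI : (E'⁄Qbar : WeierstrassCurve Qbar).IsElliptic :=
    inferInstanceAs (E'.map (algebraMap ℚ Qbar)).IsElliptic
  set C' := C.map (algebraMap ℚ Qbar) with hC'
  set φ := vcTo C' (baseChange_smul_eq C h) with hφ
  have hcomm : ∀ P : (E⁄Qbar).toAffine.Point, φ (σ • P) = σ • φ P := by
    rintro (_ | ⟨x, y, hn⟩)
    · show φ (σ • 0) = σ • φ 0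
      rw [smul_zero, _root_.map_zero, smul_zero]
    · obtain ⟨h1, e1⟩ := algEquiv_smul_some E.toAffine σ hn
      obtain ⟨h2, e2⟩ := vcTo_some C' (baseChange_smul_eq C h) hn
      obtain ⟨h3, e3⟩ := vcTo_some C' (baseChange_smul_eq C h) h1
      obtain ⟨h4, e4⟩ := algEquiv_smul_some E'.toAffine σ h2
      rw [hφ, e1, e2, e3, e4, Affine.Point.some.injEq]
      constructor <;> simp [vcX, vcY, hC', VariableChange.map]
  have hmem : ∀ x : Submodule.torsionBy ℤ (E⁄Qbar).toAffine.Point p,
      φ x.1 ∈ Submodule.torsionBy ℤ (E'⁄Qbar).toAffine.Point p := fun x => by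
    rw [Submodule.mem_torsionBy_iff, ← map_zsmul,
      (Submodule.mem_torsionBy_iff _ _).mp x.2, _root_.map_zero]
  let ψ : Submodule.torsionBy ℤ (E⁄Qbar).toAffine.Point p →+
      Submodule.torsionBy ℤ (E'⁄Qbar).toAffine.Point p :=
    AddMonoidHom.mk' (fun x => ⟨φ x.1, hmem x⟩) fun x y => Subtype.ext (map_add φ x.1 y.1)
  let ψl := ψ.toZModLinearMap p
  have hinj : Function.Injective ψl := fun x y hxy =>
    Subtype.ext (vcTo_injective C' (baseChange_smul_eq C h) (congrArg Subtype.val hxy))
  have h2 := finrank_torsionBy (K := Qbar) E.toAffine p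
  have h2' := finrank_torsionBy (K := Qbar) E'.toAffine p
  haveI : Module.Finite (ZMod p) (Submodule.torsionBy ℤ (E⁄Qbar).toAffine.Point p) :=
    Module.finite_of_finrank_eq_succ h2
  haveI : Module.Finite (ZMod p) (Submodule.torsionBy ℤ (E'⁄Qbar).toAffine.Point p) :=
    Module.finite_of_finrank_eq_succ h2'
  let e := LinearEquiv.ofInjectiveOfFinrankEq ψl hinj (h2.trans h2'.symm)
  rw [galoisTrace_def, galoisTrace_def,
    ← LinearMap.trace_conj' (galoisRepModuleEnd (K := Qbar) ℚ E.toAffine p σ) e]
  congr 1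
  refine LinearMap.ext fun x => ?_
  obtain ⟨y, rfl⟩ := e.surjective x
  rw [LinearEquiv.conj_apply_apply, e.symm_apply_apply]
  exact Subtype.ext (hcomm y.1).symm

end Fermat.Agent.EC
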